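/-
S35, geometry side (helper27): the abstract leaf (FROB-CECH).

Two normal charts `C₁ ∋ j`, `C₂ ∋ j⁻¹` over a discrete valuation ring `A₀` with uniformiser `ϖ`,
inside two discrete valuation subrings `V₁ ≠ V₂` of `F` with the same uniformiser (the two
components of the special fibre), as in Program B' (S34, `H77.exists_pow_mul_mem_of_cartier_two_inter`).
`S` a ring automorphism of `F` preserving the charts and `V₁`, `V₂`, inducing the `Q`-power map on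
the residue field of `A₀` (the square of a Frobenius lift, `Q = q²`).

If `w` is congruent to a constant times an `m`-th power modulo the maximal ideal of `V₁` and of
`V₂`, is locally a unit times an `m`-th power at every closed point of the special fibre of both
charts (Cartier condition), and every closed point is either on one component with normal branch,
or a crossing point fixed by `S` with residue action the `Q`-power map, normal branches and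
transversal crossing, then

  `S w = a · w ^ Q · h ^ m`   with `a ∈ A₀`, `h ∈ F^×`.

(`(σ² - q²)` kills the toric part of the torsion of the Jacobian.)  The proof is ONE application
of `H10.cech_charts_semilocal` to `f = S w / (w ^ Q G ^ m)`.
-/
import Fermat.Agent.S34.H77.TwoGaussConn

set_option autoImplicit false

noncomputable section

namespace Fermat.Agent.S35.H27

open Fermat.Agent.S18.H47 Fermat.Agent.S18.H86 Fermat.Agent.S34.H10 Fermat.Agent.S34.H77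

section Val

variable {F : Type*} [Field F] (V : ValuationSubring F)

theorem nu_iff {a : F} : a ∈ V.nonunits ↔ V.valuation a < 1 :=
  V.mem_nonunits_iff

theorem mem_iff {a : F} : a ∈ V ↔ V.valuation a ≤ 1 :=
  (V.valuation_le_one_iff a).symm

theorem val_mul_lt {x y : F} (hx : V.valuation x < 1) (hy : V.valuation y ≤ 1) :
    V.valuation (x * y) < 1 := by
  rw [map_mul]
  calc V.valuation x * V.valuation y ≤ V.valuation x * 1 := mul_le_mul' le_rfl hy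
    _ = V.valuation x := mul_one _
    _ < 1 := hx

theorem val_mul_lt' {x y : F} (hx : V.valuation x ≤ 1) (hy : V.valuation y < 1) :
    V.valuation (x * y) < 1 := by
  rw [mul_comm]
  exact val_mul_lt V hy hx

theorem val_eq_one_of_cg {a b : F} (h : V.valuation (a - b) < 1) (hb : V.valuation b = 1) :
    V.valuation a = 1 := by
  have e : a = (a - b) + b := by ring
  rw [e, Valuation.map_add_eq_of_lt_right, hb]
  rw [hb]
  exact h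

theorem cg_symm {a b : F} (h : V.valuation (a - b) < 1) : V.valuation (b - a) < 1 := by
  rw [Valuation.map_sub_swap]
  exact h

theorem cg_trans {a b c : F} (h1 : V.valuation (a - b) < 1) (h2 : V.valuation (b - c) < 1) :
    V.valuation (a - c) < 1 := by
  have e : a - c = (a - b) + (b - c) := by ring
  rw [e]
  exact Valuation.map_add_lt _ h1 h2

theorem cg_mul {a b c d : F} (h1 : V.valuation (a - b) < 1) (h2 : V.valuation (c - d) < 1)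
    (ha : V.valuation a ≤ 1) (hd : V.valuation d ≤ 1) : V.valuation (a * c - b * d) < 1 := by
  have e : a * c - b * d = a * (c - d) + (a - b) * d := by ring
  rw [e]
  exact Valuation.map_add_lt _ (val_mul_lt' V ha h2) (val_mul_lt V h1 hd)

theorem cg_pow {a b : F} (h : V.valuation (a - b) < 1) (ha : V.valuation a ≤ 1)
    (hb : V.valuation b ≤ 1) (n : ℕ) : V.valuation (a ^ n - b ^ n) < 1 := by
  induction n with
  | zero => simp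
  | succ n ih =>
    rw [pow_succ, pow_succ]
    refine cg_mul V ih h ?_ hb
    rw [map_pow]
    exact pow_le_one₀ zero_le ha

theorem cg_inv {a b : F} (h : V.valuation (a - b) < 1) (ha : V.valuation a = 1)
    (hb : V.valuation b = 1) : V.valuation (a⁻¹ - b⁻¹) < 1 := by
  have ha0 : a ≠ 0 := fun h0 => by rw [h0, map_zero] at ha; exact zero_ne_one ha
  have hb0 : b ≠ 0 := fun h0 => by rw [h0, map_zero] at hb; exact zero_ne_one hb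
  have e : a⁻¹ - b⁻¹ = (b - a) * (a⁻¹ * b⁻¹) := by field_simp
  rw [e]
  refine val_mul_lt V (cg_symm V h) ?_
  rw [map_mul, map_inv₀, map_inv₀, ha, hb]
  simp

theorem cg_div {a b c d : F} (h1 : V.valuation (a - b) < 1) (h2 : V.valuation (c - d) < 1)
    (ha : V.valuation a ≤ 1) (hc : V.valuation c = 1) (hd : V.valuation d = 1) :
    V.valuation (a / c - b / d) < 1 := by
  rw [div_eq_mul_inv, div_eq_mul_inv]
  refine cg_mul V h1 (cg_inv V h2 hc hd) ha ?_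
  rw [map_inv₀, hd]
  simp

theorem unit_ne_zero {a : F} (ha : V.valuation a = 1) : a ≠ 0 := fun h0 => by
  rw [h0, map_zero] at ha; exact zero_ne_one ha

theorem unit_mul {a b : F} (ha : V.valuation a = 1) (hb : V.valuation b = 1) :
    V.valuation (a * b) = 1 := by rw [map_mul, ha, hb, one_mul]

theorem unit_inv {a : F} (ha : V.valuation a = 1) : V.valuation a⁻¹ = 1 := by
  rw [map_inv₀, ha, inv_one]

theorem unit_div {a b : F} (ha : V.valuation a = 1) (hb : V.valuation b = 1) :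
    V.valuation (a / b) = 1 := by rw [map_div₀, ha, hb, div_one]

theorem unit_pow {a : F} (ha : V.valuation a = 1) (n : ℕ) : V.valuation (a ^ n) = 1 := by
  rw [map_pow, ha, one_pow]

theorem unit_of_pow {a : F} {n : ℕ} (hn : n ≠ 0) (ha : V.valuation (a ^ n) = 1) :
    V.valuation a = 1 := by
  rw [map_pow] at ha
  exact (pow_eq_one_iff_of_nonneg zero_le hn).mp ha

/-- an automorphism preserving `V` preserves the valuation inequalities -/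
theorem map_le_iff (S : F ≃+* F) (hSV : ∀ y : F, S y ∈ V ↔ y ∈ V) (y : F) :
    V.valuation (S y) ≤ 1 ↔ V.valuation y ≤ 1 := by
  rw [← mem_iff, ← mem_iff]
  exact hSV y

theorem map_lt_iff (S : F ≃+* F) (hSV : ∀ y : F, S y ∈ V ↔ y ∈ V) (y : F) :
    V.valuation (S y) < 1 ↔ V.valuation y < 1 := by
  rw [← nu_iff, ← nu_iff, ValuationSubring.mem_nonunits_iff_or,
    ValuationSubring.mem_nonunits_iff_or, ← map_inv₀, hSV]
  simp

theorem map_unit_iff (S : F ≃+* F) (hSV : ∀ y : F, S y ∈ V ↔ y ∈ V) (y : F) :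
    V.valuation (S y) = 1 ↔ V.valuation y = 1 := by
  constructor
  · intro h
    refine le_antisymm ((map_le_iff V S hSV y).1 h.le) ?_
    by_contra hlt
    have := (map_lt_iff V S hSV y).2 (not_le.mp hlt)
    rw [h] at this
    exact lt_irrefl _ this
  · intro h
    refine le_antisymm ((map_le_iff V S hSV y).2 h.le) ?_
    by_contra hlt
    have := (map_lt_iff V S hSV y).1 (not_le.mp hlt)
    rw [h] at this
    exact lt_irrefl _ this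

theorem cg_map (S : F ≃+* F) (hSV : ∀ y : F, S y ∈ V ↔ y ∈ V) {a b : F}
    (h : V.valuation (a - b) < 1) : V.valuation (S a - S b) < 1 := by
  rw [← map_sub]
  exact (map_lt_iff V S hSV _).2 h

end Val

section Cech

/-- **The two-chart Čech lemma for two Gauss rings, function form.**  Charts and valuation rings
as in `H77.exists_pow_mul_mem_of_cartier_two_inter`; `f` a unit of `V₁` and `V₂`, congruent to `1`
modulo both maximal ideals, with local `m`-th roots at every closed point of the special fibre of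
both charts.  Then `f h ^ m` is a constant for some `h ≠ 0`. -/
theorem cech_two_inter
    {A₀ : Type*} [CommRing A₀] [IsDomain A₀] [IsDiscreteValuationRing A₀]
    {F : Type*} [Field F] [Algebra A₀ F] [FaithfulSMul A₀ F]
    (ϖ : A₀) (hϖ : Irreducible ϖ) (m : ℕ) (hm : IsUnit (m : A₀)) (j : F) (hj0 : j ≠ 0)
    (C₁ C₂ : Subalgebra A₀ F) [IsIntegrallyClosed ↥C₁] [IsIntegrallyClosed ↥C₂]
    (hj₁ : j ∈ C₁) (hj₂ : j⁻¹ ∈ C₂)
    (hfin₁ : ∃ s : Finset F, (C₁ : Set F) =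
      Submodule.span (Algebra.adjoin A₀ ({j} : Set F)) (s : Set F))
    (hfrac : ∀ x : F, ∃ a ∈ C₁, ∃ b ∈ C₁, b ≠ 0 ∧ x = a / b)
    (hglue : ∀ x : F, (∃ n : ℕ, j ^ n * x ∈ C₁) ↔ (∃ n : ℕ, j⁻¹ ^ n * x ∈ C₂))
    (V₁ V₂ : ValuationSubring F) (hu₁ : IsUnif ϖ V₁) (hu₂ : IsUnif ϖ V₂)
    (hC₁V₁ : ∀ c ∈ C₁, c ∈ V₁) (hC₁V₂ : ∀ c ∈ C₁, c ∈ V₂)
    (hC₂V₁ : ∀ c ∈ C₂, c ∈ V₁) (hC₂V₂ : ∀ c ∈ C₂, c ∈ V₂)
    (hjV₁ : j⁻¹ ∈ V₁) (hjV₂ : j⁻¹ ∈ V₂)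
    (hsat₁ : ∀ y : F, y ∈ V₁ → y ∈ V₂ → ϖ • y ∈ C₁ → y ∈ C₁)
    (hsat₂ : ∀ y : F, y ∈ V₁ → y ∈ V₂ → ϖ • y ∈ C₂ → y ∈ C₂)
    (hconst₁ : ∀ c₁ ∈ C₁, ∀ c₂ ∈ C₂, c₁ - c₂ ∈ V₁.nonunits →
      ∃ a : A₀, c₁ - algebraMap A₀ F a ∈ V₁.nonunits)
    (hconst₂ : ∀ c₁ ∈ C₁, ∀ c₂ ∈ C₂, c₁ - c₂ ∈ V₂.nonunits →
      ∃ a : A₀, c₁ - algebraMap A₀ F a ∈ V₂.nonunits)
    (hinter : ∀ c ∈ C₁, c ∈ C₂ → ∃ a : A₀, c = algebraMap A₀ F a)
    (f : F) (hf₁ : V₁.valuation f = 1) (hf₂ : V₂.valuation f = 1)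
    (hf1₁ : V₁.valuation (f - 1) < 1) (hf1₂ : V₂.valuation (f - 1) < 1)
    (hloc₁ : ∀ x : Ideal ↥C₁, x.IsMaximal → algebraMap A₀ ↥C₁ ϖ ∈ x →
      ∃ θ : F, ∃ s : ↥C₁, s ∉ x ∧ V₁.valuation (θ - (s : F)) < 1 ∧
        V₂.valuation (θ - (s : F)) < 1 ∧ ∃ h : f * θ ^ m ∈ C₁, (⟨_, h⟩ : ↥C₁) ∉ x)
    (hloc₂ : ∀ x : Ideal ↥C₂, x.IsMaximal → algebraMap A₀ ↥C₂ ϖ ∈ x →
      ∃ θ : F, ∃ s : ↥C₂, s ∉ x ∧ V₁.valuation (θ - (s : F)) < 1 ∧
        V₂.valuation (θ - (s : F)) < 1 ∧ ∃ h : f * θ ^ m ∈ C₂, (⟨_, h⟩ : ↥C₂) ∉ x) :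
    ∃ (a : A₀) (h : F), h ≠ 0 ∧ f * h ^ m = algebraMap A₀ F a := by
  have hϖ0 : algebraMap A₀ F ϖ ≠ 0 := fun h0 =>
    hϖ.ne_zero (FaithfulSMul.algebraMap_injective A₀ F (by rw [h0, map_zero]))
  have hm0 : m ≠ 0 := by
    rintro rfl
    rw [Nat.cast_zero] at hm
    exact not_isUnit_zero hm
  have hA₁ : ∀ a : A₀, algebraMap A₀ F a ∈ V₁ := fun a => hC₁V₁ _ (C₁.algebraMap_mem a)
  have hA₂ : ∀ a : A₀, algebraMap A₀ F a ∈ V₂ := fun a => hC₁V₂ _ (C₁.algebraMap_mem a)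
  have hdv : ∀ y : F, Dv ϖ (interAlg V₁ V₂ hA₁ hA₂) y ↔ y ∈ V₁.nonunits ∧ y ∈ V₂.nonunits :=
    fun y => dv_interAlg_iff hu₁ hu₂ hϖ0
  have hϖ₁ : algebraMap A₀ F ϖ ∈ V₁.nonunits :=
    (hu₁ _).2 ⟨1, V₁.one_mem, by rw [Algebra.smul_def, mul_one]⟩
  have hϖ₂ : algebraMap A₀ F ϖ ∈ V₂.nonunits :=
    (hu₂ _).2 ⟨1, V₂.one_mem, by rw [Algebra.smul_def, mul_one]⟩
  have hC₁O : C₁ ≤ interAlg V₁ V₂ hA₁ hA₂ := fun c hc => ⟨hC₁V₁ c hc, hC₁V₂ c hc⟩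
  have hC₂O : C₂ ≤ interAlg V₁ V₂ hA₁ hA₂ := fun c hc => ⟨hC₂V₁ c hc, hC₂V₂ c hc⟩
  have hsat₁' : ∀ y ∈ interAlg V₁ V₂ hA₁ hA₂, ϖ • y ∈ C₁ → y ∈ C₁ :=
    fun y hy h => hsat₁ y hy.1 hy.2 h
  have hsat₂' : ∀ y ∈ interAlg V₁ V₂ hA₁ hA₂, ϖ • y ∈ C₂ → y ∈ C₂ :=
    fun y hy h => hsat₂ y hy.1 hy.2 h
  have hf0 : f ≠ 0 := unit_ne_zero V₁ hf₁
  have hnu : ¬ Dv ϖ (interAlg V₁ V₂ hA₁ hA₂) 1 := by
    intro h
    have h1 := ((hdv 1).1 h).1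
    rw [ValuationSubring.mem_nonunits_iff, map_one] at h1
    exact lt_irrefl _ h1
  have hroot : ∀ z : F, z ^ m ∈ interAlg V₁ V₂ hA₁ hA₂ → z ∈ interAlg V₁ V₂ hA₁ hA₂ := by
    intro z hz
    exact ⟨mem_valuationSubring_of_pow_mem V₁ hm0 hz.1, mem_valuationSubring_of_pow_mem V₂ hm0 hz.2⟩
  have hconst : ∀ c₁ ∈ C₁, ∀ c₂ ∈ C₂, Dv ϖ (interAlg V₁ V₂ hA₁ hA₂) (c₁ - c₂) →
      ∃ a : A₀, Dv ϖ (interAlg V₁ V₂ hA₁ hA₂) (c₁ - algebraMap A₀ F a) := by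
    refine hconst_of_components ϖ hϖ j hj0 C₁ C₂ hj₁ hj₂ hfin₁ hglue (interAlg V₁ V₂ hA₁ hA₂)
      hC₁O hC₂O hsat₁' hsat₂' V₁ V₂ (fun x hx => hx.1) (fun x hx => hx.2)
      ((ValuationSubring.mem_nonunits_iff _).1 hϖ₁) ((ValuationSubring.mem_nonunits_iff _).1 hϖ₂)
      (fun x _ h1 h2 => (hdv x).2 ⟨(ValuationSubring.mem_nonunits_iff _).2 h1,
        (ValuationSubring.mem_nonunits_iff _).2 h2⟩) hinter ?_ ?_
    · intro c₁ hc₁ c₂ hc₂ h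
      obtain ⟨a, ha⟩ := hconst₁ c₁ hc₁ c₂ hc₂ ((ValuationSubring.mem_nonunits_iff _).2 h)
      exact ⟨a, (ValuationSubring.mem_nonunits_iff _).1 ha⟩
    · intro c₁ hc₁ c₂ hc₂ h
      obtain ⟨a, ha⟩ := hconst₂ c₁ hc₁ c₂ hc₂ ((ValuationSubring.mem_nonunits_iff _).2 h)
      exact ⟨a, (ValuationSubring.mem_nonunits_iff _).1 ha⟩
  have hl₁ : ∀ x : Ideal ↥C₁, x.IsMaximal → algebraMap A₀ ↥C₁ ϖ ∈ x →
      ∃ θ : F, ∃ s : ↥C₁, s ∉ x ∧ Dv ϖ (interAlg V₁ V₂ hA₁ hA₂) (θ - (s : F)) ∧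
        ∃ h : f * θ ^ m ∈ C₁, (⟨_, h⟩ : ↥C₁) ∉ x := by
    intro x hx hπ
    obtain ⟨θ, s, hs, h1, h2, h3⟩ := hloc₁ x hx hπ
    exact ⟨θ, s, hs, (hdv _).2 ⟨(nu_iff V₁).2 h1, (nu_iff V₂).2 h2⟩, h3⟩
  have hl₂ : ∀ x : Ideal ↥C₂, x.IsMaximal → algebraMap A₀ ↥C₂ ϖ ∈ x →
      ∃ θ : F, ∃ s : ↥C₂, s ∉ x ∧ Dv ϖ (interAlg V₁ V₂ hA₁ hA₂) (θ - (s : F)) ∧
        ∃ h : f * θ ^ m ∈ C₂, (⟨_, h⟩ : ↥C₂) ∉ x := by
    intro x hx hπ
    obtain ⟨θ, s, hs, h1, h2, h3⟩ := hloc₂ x hx hπ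
    exact ⟨θ, s, hs, (hdv _).2 ⟨(nu_iff V₁).2 h1, (nu_iff V₂).2 h2⟩, h3⟩
  obtain ⟨h, hh0, hh1, hh2⟩ := cech_charts_semilocal ϖ hϖ m hm j hj0 C₁ C₂ hj₁ hj₂ hfin₁ hfrac
    hglue (interAlg V₁ V₂ hA₁ hA₂) hC₁O hC₂O ⟨hjV₁, hjV₂⟩ hnu hroot hsat₁' hsat₂' hconst
    f hf0 ⟨(mem_iff V₁).2 hf₁.le, (mem_iff V₂).2 hf₂.le⟩
    ⟨(mem_iff V₁).2 (unit_inv V₁ hf₁).le, (mem_iff V₂).2 (unit_inv V₂ hf₂).le⟩
    ((hdv _).2 ⟨(nu_iff V₁).2 hf1₁, (nu_iff V₂).2 hf1₂⟩) hl₁ hl₂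
  obtain ⟨a, ha⟩ := hinter _ hh1 hh2
  exact ⟨a, h, hh0, ha⟩

end Cech

section Points

variable {A₀ : Type*} [CommRing A₀] {F : Type*} [Field F] [Algebra A₀ F]

/-- The branch along `V` of the special fibre of the chart `C` is normal at `x`, in the form
used here: an element of `V` whose `m`-th power is congruent modulo `m_V` to a unit of `C_x` is
itself congruent to a unit of `C_x`. -/
def BranchNormal (C : Subalgebra A₀ F) (V : ValuationSubring F) (m : ℕ) (x : Ideal ↥C) : Prop :=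
  ∀ y : F, y ∈ V → (∃ a b : ↥C, a ∉ x ∧ b ∉ x ∧ y ^ m * (b : F) - (a : F) ∈ V.nonunits) →
    ∃ s₁ s₂ : ↥C, s₁ ∉ x ∧ s₂ ∉ x ∧ y * (s₂ : F) - (s₁ : F) ∈ V.nonunits

/-- `x` is a closed point lying on the `V`-component only, with normal branch. -/
def OneComp (C : Subalgebra A₀ F) (V V' : ValuationSubring F) (m : ℕ) (x : Ideal ↥C) : Prop :=
  (∃ t : ↥C, t ∉ x ∧ (t : F) ∈ V'.nonunits) ∧ BranchNormal C V m x

/-- `x` is a crossing point of the two components: fixed by `S`, with `S` inducing the `Q`-power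
map on the residue field, normal branches, transversal crossing. -/
def Crossing (C : Subalgebra A₀ F) (V₁ V₂ : ValuationSubring F) (S : F ≃+* F) (Q m : ℕ)
    (x : Ideal ↥C) : Prop :=
  (∀ c : ↥C, (c : F) ∈ V₁.nonunits → c ∈ x) ∧ (∀ c : ↥C, (c : F) ∈ V₂.nonunits → c ∈ x) ∧
  (∀ c : ↥C, ∃ d : ↥C, d ∈ x ∧ S (c : F) = (c : F) ^ Q + (d : F)) ∧
  BranchNormal C V₁ m x ∧ BranchNormal C V₂ m x ∧
  (∀ r : ↥C, r ∈ x → ∃ p₁ p₂ s : ↥C, s ∉ x ∧ (p₁ : F) ∈ V₁.nonunits ∧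
    (p₂ : F) ∈ V₂.nonunits ∧ s * r = p₁ + p₂)

/-- The type of a closed point of the special fibre. -/
def PointFrob (C : Subalgebra A₀ F) (V₁ V₂ : ValuationSubring F) (S : F ≃+* F) (Q m : ℕ)
    (x : Ideal ↥C) : Prop :=
  OneComp C V₁ V₂ m x ∨ OneComp C V₂ V₁ m x ∨ Crossing C V₁ V₂ S Q m x

/-- The automorphism of a chart induced by an automorphism of `F` preserving it. -/
def resEquiv (C : Subalgebra A₀ F) (S : F ≃+* F) (hSC : ∀ c : F, S c ∈ C ↔ c ∈ C) : ↥C ≃+* ↥C where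
  toFun := fun c => ⟨S c, (hSC c).2 c.2⟩
  invFun := fun c => ⟨S.symm c, (hSC (S.symm c)).1 (by rw [S.apply_symm_apply]; exact c.2)⟩
  left_inv := fun c => Subtype.ext (S.symm_apply_apply c)
  right_inv := fun c => Subtype.ext (S.apply_symm_apply c)
  map_mul' := fun a b => Subtype.ext (map_mul S (a : F) (b : F))
  map_add' := fun a b => Subtype.ext (map_add S (a : F) (b : F))

theorem coe_resEquiv (C : Subalgebra A₀ F) (S : F ≃+* F) (hSC : ∀ c : F, S c ∈ C ↔ c ∈ C)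
    (c : ↥C) : ((resEquiv C S hSC c : ↥C) : F) = S (c : F) := rfl

theorem exists_mem_not_mem_of_eq (C : Subalgebra A₀ F) (x : Ideal ↥C) (y : F) (c : ↥C)
    (hc : c ∉ x) (e : y = (c : F)) : ∃ h : y ∈ C, (⟨y, h⟩ : ↥C) ∉ x := by
  subst e
  exact ⟨c.2, hc⟩

/-- Weak approximation for two distinct valuation rings with a common uniformiser. -/
theorem exists_approx (ϖ : A₀) (V₁ V₂ : ValuationSubring F) (hu₁ : IsUnif ϖ V₁)
    (hu₂ : IsUnif ϖ V₂) (hne : V₁ ≠ V₂) :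
    ∃ θ : F, V₁.valuation θ < 1 ∧ V₂.valuation (θ - 1) < 1 := by
  have key : ∀ (W W' : ValuationSubring F), IsUnif ϖ W → IsUnif ϖ W' → W ≤ W' → W' ≤ W := by
    intro W W' hW hW' hle y hy
    by_contra hyW
    have hy0 : y ≠ 0 := fun h0 => hyW (by rw [h0]; exact W.zero_mem)
    have h1 : y⁻¹ ∈ W.nonunits := by
      rw [ValuationSubring.mem_nonunits_iff_or, inv_inv]
      exact Or.inr hyW
    obtain ⟨d, hd, hde⟩ := (hW _).1 h1
    have h2 : y⁻¹ ∈ W'.nonunits := (hW' _).2 ⟨d, hle hd, hde⟩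
    rw [ValuationSubring.mem_nonunits_iff_or, inv_inv] at h2
    rcases h2 with h2 | h2
    · exact hy0 (inv_eq_zero.mp h2)
    · exact h2 hy
  have h12 : ¬ V₁ ≤ V₂ := fun h => hne (le_antisymm h (key V₁ V₂ hu₁ hu₂ h))
  have h21 : ¬ V₂ ≤ V₁ := fun h => hne (le_antisymm (key V₂ V₁ hu₂ hu₁ h) h)
  obtain ⟨a, ha₁, ha₂⟩ := SetLike.not_le_iff_exists.mp h12
  obtain ⟨b, hb₂, hb₁⟩ := SetLike.not_le_iff_exists.mp h21
  have hb1 : 1 < V₁.valuation b := not_le.mp fun h => hb₁ ((mem_iff V₁).2 h)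
  have ha2 : 1 < V₂.valuation a := not_le.mp fun h => ha₂ ((mem_iff V₂).2 h)
  have ha1 : V₁.valuation a ≤ 1 := (mem_iff V₁).1 ha₁
  have hb2 : V₂.valuation b ≤ 1 := (mem_iff V₂).1 hb₂
  have ha0 : a ≠ 0 := fun h0 => by rw [h0, map_zero] at ha2; exact not_lt.mpr zero_le ha2
  have hb0 : b ≠ 0 := fun h0 => by rw [h0, map_zero] at hb1; exact not_lt.mpr zero_le hb1
  have ht1 : V₁.valuation (a / b) < 1 := by
    rw [map_div₀, div_lt_one₀ (lt_trans zero_lt_one hb1)]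
    exact lt_of_le_of_lt ha1 hb1
  have ht2 : V₂.valuation (b / a) < 1 := by
    rw [map_div₀, div_lt_one₀ (lt_trans zero_lt_one ha2)]
    exact lt_of_le_of_lt hb2 ha2
  have h1t : V₁.valuation (1 + a / b) = 1 := Valuation.map_one_add_of_lt _ ht1
  have h1t0 : 1 + a / b ≠ 0 := unit_ne_zero V₁ h1t
  have hab0 : b + a ≠ 0 := by
    intro h0
    apply h1t0
    have e : 1 + a / b = (b + a) / b := by field_simp
    rw [e, h0, zero_div]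
  refine ⟨a / b / (1 + a / b), ?_, ?_⟩
  · rw [map_div₀, h1t, div_one]
    exact ht1
  · have e : a / b / (1 + a / b) - 1 = -(b / a / (1 + b / a)) := by
      have h3 : a + b ≠ 0 := by rw [add_comm]; exact hab0
      field_simp
      ring
    rw [e, Valuation.map_neg, map_div₀, Valuation.map_one_add_of_lt _ ht2, div_one]
    exact ht2

/-- **Local datum at a one-component point.**  `f B = A T ^ m` with `A, B ∈ C ∖ x`, `f ≡ 1`
modulo `m_V`; `x` lies on the `V`-component only and the branch is normal at `x`.  Then `f` has a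
local `m`-th root datum at `x`. -/
theorem local_oneComp (ϖ : A₀) (C : Subalgebra A₀ F) (V V' : ValuationSubring F)
    (hCV : ∀ c ∈ C, c ∈ V) (hCV' : ∀ c ∈ C, c ∈ V')
    (hu' : IsUnif ϖ V') (harch' : ∀ y : F, ∃ n : ℕ, ϖ ^ n • y ∈ V')
    (x : Ideal ↥C) (hx : x.IsPrime)
    (hPP : ∀ c : ↥C, (c : F) ∈ V.nonunits → (c : F) ∈ V'.nonunits → c ∈ x)
    (m : ℕ) (hm : m ≠ 0) (hoc : OneComp C V V' m x)
    (f T : F) (A B : ↥C) (hA : A ∉ x) (hB : B ∉ x) (hT0 : T ≠ 0)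
    (hf1 : V.valuation (f - 1) < 1)
    (hfT : f * (B : F) = (A : F) * T ^ m) :
    ∃ θ : F, ∃ s : ↥C, s ∉ x ∧ V.valuation (θ - (s : F)) < 1 ∧ V'.valuation (θ - (s : F)) < 1 ∧
      ∃ h : f * θ ^ m ∈ C, (⟨_, h⟩ : ↥C) ∉ x := by
  obtain ⟨⟨t, htx, htV'⟩, hbn⟩ := hoc
  obtain ⟨k, rfl⟩ := Nat.exists_eq_add_one_of_ne_zero hm
  -- elements of `C` outside `x` are units of `V`
  have hunit : ∀ c : ↥C, c ∉ x → V.valuation (c : F) = 1 := by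
    intro c hc
    refine le_antisymm ((mem_iff V).1 (hCV c c.2)) ?_
    by_contra hlt
    apply hc
    have h1 : (c * t : ↥C) ∈ x := by
      refine hPP (c * t) ?_ ?_
      · rw [nu_iff]
        exact val_mul_lt V (not_le.mp hlt) ((mem_iff V).1 (hCV t t.2))
      · rw [nu_iff]
        exact val_mul_lt' V' ((mem_iff V').1 (hCV' c c.2)) ((nu_iff V').1 htV')
    rcases hx.mem_or_mem h1 with h | h
    · exact h
    · exact absurd h htx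
  have hAu := hunit A hA
  have hBu := hunit B hB
  have hA0 : (A : F) ≠ 0 := unit_ne_zero V hAu
  have hB0 : (B : F) ≠ 0 := unit_ne_zero V hBu
  have hfu : V.valuation f = 1 := val_eq_one_of_cg V hf1 (map_one _)
  have hTm : V.valuation (T ^ (k + 1)) = 1 := by
    have e : T ^ (k + 1) = f * (B : F) / (A : F) := by
      rw [hfT]
      field_simp
    rw [e]
    exact unit_div V (unit_mul V hfu hBu) hAu
  have hTu : V.valuation T = 1 := unit_of_pow V (Nat.succ_ne_zero k) hTm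
  have hcg : T ^ (k + 1) * (A : F) - (B : F) ∈ V.nonunits := by
    rw [nu_iff]
    have e : T ^ (k + 1) * (A : F) - (B : F) = (f - 1) * (B : F) := by
      rw [sub_mul, one_mul, hfT]
      ring
    rw [e]
    exact val_mul_lt V hf1 hBu.le
  obtain ⟨s₁, s₂, hs₁, hs₂, hs⟩ := hbn T ((mem_iff V).2 hTu.le) ⟨B, A, hB, hA, hcg⟩
  rw [nu_iff] at hs
  obtain ⟨n, hn⟩ := harch' T⁻¹
  obtain ⟨d, hd, hde⟩ := (hu' _).1 htV'
  -- the candidate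
  have hsx : B * s₂ * t ^ (n + 1) ∉ x := by
    intro h
    rcases hx.mem_or_mem h with h | h
    · rcases hx.mem_or_mem h with h | h
      · exact hB h
      · exact hs₂ h
    · exact htx (hx.mem_of_pow_mem _ h)
  have hc0 : A * B ^ k * s₁ ^ (k + 1) * t ^ ((n + 1) * (k + 1)) ∉ x := by
    intro h
    rcases hx.mem_or_mem h with h | h
    · rcases hx.mem_or_mem h with h | h
      · rcases hx.mem_or_mem h with h | h
        · exact hA h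
        · exact hB (hx.mem_of_pow_mem _ h)
      · exact hs₁ (hx.mem_of_pow_mem _ h)
    · exact htx (hx.mem_of_pow_mem _ h)
  refine ⟨(B : F) * (s₁ : F) * (t : F) ^ (n + 1) / T, B * s₂ * t ^ (n + 1), hsx, ?_, ?_, ?_⟩
  · -- at `V`
    have e : (B : F) * (s₁ : F) * (t : F) ^ (n + 1) / T - ((B * s₂ * t ^ (n + 1) : ↥C) : F)
        = -((T * (s₂ : F) - (s₁ : F)) * ((B : F) * (t : F) ^ (n + 1) * T⁻¹)) := by
      push_cast
      field_simp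
      ring
    rw [e, Valuation.map_neg]
    refine val_mul_lt V hs ?_
    rw [map_mul, map_mul, map_pow, map_inv₀, hTu, hBu, inv_one, mul_one, one_mul]
    exact pow_le_one₀ zero_le ((mem_iff V).1 (hCV t t.2))
  · -- at `V'`
    have htn : V'.valuation ((t : F) ^ (n + 1) * T⁻¹) < 1 := by
      rw [← nu_iff]
      refine (hu' _).2 ⟨d ^ (n + 1) * (ϖ ^ n • T⁻¹), V'.mul_mem _ _ (pow_mem hd _) hn, ?_⟩
      rw [hde, Algebra.smul_def, Algebra.smul_def, Algebra.smul_def, map_pow]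
      ring
    refine Valuation.map_sub_lt _ ?_ ?_
    · have e : (B : F) * (s₁ : F) * (t : F) ^ (n + 1) / T
          = ((t : F) ^ (n + 1) * T⁻¹) * ((B : F) * (s₁ : F)) := by
        field_simp
      rw [e]
      refine val_mul_lt V' htn ?_
      exact (mem_iff V').1 (V'.mul_mem _ _ (hCV' B B.2) (hCV' s₁ s₁.2))
    · have e : ((B * s₂ * t ^ (n + 1) : ↥C) : F)
          = (t : F) * ((B : F) * (s₂ : F) * (t : F) ^ n) := by
        push_cast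
        ring
      rw [e]
      refine val_mul_lt V' ((nu_iff V').1 htV') ?_
      exact (mem_iff V').1 (V'.mul_mem _ _ (V'.mul_mem _ _ (hCV' B B.2) (hCV' s₂ s₂.2))
        (pow_mem (hCV' t t.2) _))
  · refine exists_mem_not_mem_of_eq C x _ _ hc0 ?_
    have e1 : f = (A : F) * T ^ (k + 1) / (B : F) := by
      rw [← hfT]
      field_simp
    have hTk : T ^ (k + 1) ≠ 0 := pow_ne_zero _ hT0
    rw [e1]
    push_cast
    rw [div_pow, mul_pow, mul_pow, ← pow_mul, pow_succ (B : F) k]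
    field_simp

/-- One branch at a crossing point: `T = S g / (g ^ Q G)` is congruent modulo `m_V` to a
quotient `n / d` of elements of `C ∖ x` with `n - d ∈ x`. -/
theorem crossing_branch (C : Subalgebra A₀ F) (V : ValuationSubring F)
    (hCV : ∀ c ∈ C, c ∈ V) (S : F ≃+* F) (hSC : ∀ c : F, S c ∈ C ↔ c ∈ C)
    (hSV : ∀ y : F, S y ∈ V ↔ y ∈ V) (Q : ℕ) (x : Ideal ↥C) (hx : x.IsPrime) (m : ℕ) (hm : m ≠ 0)
    (hPx : ∀ c : ↥C, (c : F) ∈ V.nonunits → c ∈ x)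
    (hSx : ∀ c : ↥C, ∃ d : ↥C, d ∈ x ∧ S (c : F) = (c : F) ^ Q + (d : F))
    (hbn : BranchNormal C V m x)
    (w g G : F) (a b : ↥C) (ha : a ∉ x) (hb : b ∉ x)
    (hwab : w * (b : F) = (a : F) * g ^ m)
    (c : ↥C) (hc : c ∉ x) (h : F) (hh : V.valuation h = 1)
    (hw : V.valuation (w - (c : F) * h ^ m) < 1)
    (hG : V.valuation (G - S h / h ^ Q) < 1) :
    V.valuation (S g / (g ^ Q * G)) = 1 ∧
    ∃ n d : ↥C, n ∉ x ∧ d ∉ x ∧ n - d ∈ x ∧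
      V.valuation (S g / (g ^ Q * G) * (d : F) - (n : F)) < 1 := by
  have hunit : ∀ c : ↥C, c ∉ x → V.valuation (c : F) = 1 := by
    intro c hc
    refine le_antisymm ((mem_iff V).1 (hCV c c.2)) ?_
    by_contra hlt
    exact hc (hPx c ((nu_iff V).2 (not_le.mp hlt)))
  have hSnot : ∀ c : ↥C, c ∉ x → resEquiv C S hSC c ∉ x := by
    intro c hc hmem
    obtain ⟨d, hd, hde⟩ := hSx c
    have e : c ^ Q = resEquiv C S hSC c - d := by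
      apply Subtype.ext
      push_cast
      rw [coe_resEquiv, hde]
      ring
    exact hc (hx.mem_of_pow_mem Q (e ▸ x.sub_mem hmem hd))
  have hau := hunit a ha
  have hbu := hunit b hb
  have hcu := hunit c hc
  have hch : V.valuation ((c : F) * h ^ m) = 1 := unit_mul V hcu (unit_pow V hh m)
  have hwu : V.valuation w = 1 := val_eq_one_of_cg V hw hch
  have hw0 := unit_ne_zero V hwu
  have ha0 := unit_ne_zero V hau
  have hb0 := unit_ne_zero V hbu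
  have hc0 := unit_ne_zero V hcu
  have hh0 := unit_ne_zero V hh
  have hgm : V.valuation (g ^ m) = 1 := by
    have e : g ^ m = w * (b : F) / (a : F) := by
      rw [hwab]
      field_simp
    rw [e]
    exact unit_div V (unit_mul V hwu hbu) hau
  have hgu : V.valuation g = 1 := unit_of_pow V hm hgm
  have hg0 := unit_ne_zero V hgu
  have hSgu : V.valuation (S g) = 1 := (map_unit_iff V S hSV g).2 hgu
  have hShu : V.valuation (S h) = 1 := (map_unit_iff V S hSV h).2 hh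
  have hG'u : V.valuation (S h / h ^ Q) = 1 := unit_div V hShu (unit_pow V hh Q)
  have hGu : V.valuation G = 1 := val_eq_one_of_cg V hG hG'u
  have hG0 := unit_ne_zero V hGu
  have hSg0 := unit_ne_zero V hSgu
  have hSh0 := unit_ne_zero V hShu
  -- `ρ = h / g`
  have hρu : V.valuation (h / g) = 1 := unit_div V hh hgu
  have hρ : (h / g) ^ m * ((c * b : ↥C) : F) - (a : F) ∈ V.nonunits := by
    rw [nu_iff]
    have hgm0 : g ^ m ≠ 0 := pow_ne_zero _ hg0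
    have e : (h / g) ^ m * ((c * b : ↥C) : F) - (a : F)
        = -((w - (c : F) * h ^ m) * ((a : F) * w⁻¹)) := by
      have e2 : (b : F) = (a : F) * g ^ m / w := by
        rw [← hwab]
        field_simp
      push_cast
      rw [e2, div_pow]
      field_simp
      ring
    rw [e, Valuation.map_neg]
    refine val_mul_lt V hw ?_
    rw [map_mul, map_inv₀, hau, hwu, inv_one, one_mul]
  have hcb : c * b ∉ x := fun h => (hx.mem_or_mem h).elim hc hb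
  obtain ⟨s₁, s₂, hs₁, hs₂, hs⟩ := hbn (h / g) ((mem_iff V).2 hρu.le) ⟨a, c * b, ha, hcb, hρ⟩
  rw [nu_iff] at hs
  have hs₁u := hunit s₁ hs₁
  have hs₂u := hunit s₂ hs₂
  have hs₁0 := unit_ne_zero V hs₁u
  have hs₂0 := unit_ne_zero V hs₂u
  have hSs₁u : V.valuation (S (s₁ : F)) = 1 := (map_unit_iff V S hSV _).2 hs₁u
  have hSs₂u : V.valuation (S (s₂ : F)) = 1 := (map_unit_iff V S hSV _).2 hs₂u
  have hSs₁0 := unit_ne_zero V hSs₁u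
  have hSs₂0 := unit_ne_zero V hSs₂u
  -- `ρ ≡ s₁ / s₂`
  have hρr : V.valuation (h / g - (s₁ : F) / (s₂ : F)) < 1 := by
    have e : h / g - (s₁ : F) / (s₂ : F) = (h / g * (s₂ : F) - (s₁ : F)) * (s₂ : F)⁻¹ := by
      field_simp
    rw [e]
    refine val_mul_lt V hs ?_
    rw [map_inv₀, hs₂u, inv_one]
  have hru : V.valuation ((s₁ : F) / (s₂ : F)) = 1 := unit_div V hs₁u hs₂u
  -- `T ≡ S g / (g ^ Q (S h / h ^ Q)) = ρ ^ Q / S ρ ≡ r ^ Q / S r`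
  have hT1 : V.valuation (S g / (g ^ Q * G) - S g / (g ^ Q * (S h / h ^ Q))) < 1 := by
    refine cg_div V (by simp) ?_ hSgu.le (unit_mul V (unit_pow V hgu Q) hGu)
      (unit_mul V (unit_pow V hgu Q) hG'u)
    rw [← mul_sub]
    exact val_mul_lt' V (unit_pow V hgu Q).le hG
  have hT2 : S g / (g ^ Q * (S h / h ^ Q)) = (h / g) ^ Q / S (h / g) := by
    rw [map_div₀, div_pow]
    have hgQ : g ^ Q ≠ 0 := pow_ne_zero _ hg0
    have hhQ : h ^ Q ≠ 0 := pow_ne_zero _ hh0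
    field_simp
  have hT3 : V.valuation ((h / g) ^ Q / S (h / g)
      - ((s₁ : F) / (s₂ : F)) ^ Q / S ((s₁ : F) / (s₂ : F))) < 1 := by
    refine cg_div V (cg_pow V hρr hρu.le hru.le Q) (cg_map V S hSV hρr)
      (unit_pow V hρu Q).le ((map_unit_iff V S hSV _).2 hρu) ((map_unit_iff V S hSV _).2 hru)
  have hT : V.valuation (S g / (g ^ Q * G)
      - ((s₁ : F) / (s₂ : F)) ^ Q / S ((s₁ : F) / (s₂ : F))) < 1 := by
    refine cg_trans V hT1 ?_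
    rw [hT2]
    exact hT3
  have hTu : V.valuation (S g / (g ^ Q * G)) = 1 :=
    unit_div V hSgu (unit_mul V (unit_pow V hgu Q) hGu)
  refine ⟨hTu, s₁ ^ Q * resEquiv C S hSC s₂, s₂ ^ Q * resEquiv C S hSC s₁, ?_, ?_, ?_, ?_⟩
  · intro h
    rcases hx.mem_or_mem h with h | h
    · exact hs₁ (hx.mem_of_pow_mem _ h)
    · exact hSnot s₂ hs₂ h
  · intro h
    rcases hx.mem_or_mem h with h | h
    · exact hs₂ (hx.mem_of_pow_mem _ h)
    · exact hSnot s₁ hs₁ h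
  · obtain ⟨d₁, hd₁, hde₁⟩ := hSx s₁
    obtain ⟨d₂, hd₂, hde₂⟩ := hSx s₂
    have e : s₁ ^ Q * resEquiv C S hSC s₂ - s₂ ^ Q * resEquiv C S hSC s₁
        = s₁ ^ Q * d₂ - s₂ ^ Q * d₁ := by
      apply Subtype.ext
      push_cast
      rw [coe_resEquiv, coe_resEquiv, hde₁, hde₂]
      ring
    rw [e]
    exact x.sub_mem (x.mul_mem_left _ hd₂) (x.mul_mem_left _ hd₁)
  · have e : S g / (g ^ Q * G) * ((s₂ ^ Q * resEquiv C S hSC s₁ : ↥C) : F)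
        - ((s₁ ^ Q * resEquiv C S hSC s₂ : ↥C) : F)
        = (S g / (g ^ Q * G) - ((s₁ : F) / (s₂ : F)) ^ Q / S ((s₁ : F) / (s₂ : F)))
          * ((s₂ : F) ^ Q * S (s₁ : F)) := by
      push_cast
      rw [coe_resEquiv, coe_resEquiv, map_div₀, div_pow]
      have h1 : (s₂ : F) ^ Q ≠ 0 := pow_ne_zero _ hs₂0
      field_simp
    rw [e]
    refine val_mul_lt V hT ?_
    rw [map_mul, map_pow, hs₂u, hSs₁u, one_pow, one_mul]

theorem theta_sub (T B N D : F) (hT : T ≠ 0) :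
    B * N / T - B * D = -((T * D - N) * (B * T⁻¹)) := by
  field_simp
  ring

theorem frob_identity (S : F ≃+* F) (Q k : ℕ) (w g G a b N : F) (ha : a ≠ 0) (hb : b ≠ 0)
    (hg : g ≠ 0) (hG : G ≠ 0) (hwab : w * b = a * g ^ (k + 1)) :
    S w / (w ^ Q * G ^ (k + 1)) * (S b * a ^ Q * N / (S g / (g ^ Q * G))) ^ (k + 1)
      = S a * b ^ Q * (S b * a ^ Q) ^ k * N ^ (k + 1) := by
  have hSa0 : S a ≠ 0 := (map_ne_zero S).2 ha
  have hSb0 : S b ≠ 0 := (map_ne_zero S).2 hb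
  have hSg0 : S g ≠ 0 := (map_ne_zero S).2 hg
  have e1 : w = a * g ^ (k + 1) / b := by
    rw [← hwab]
    field_simp
  have e2 : S w = S a * S g ^ (k + 1) / S b := by
    rw [e1, map_div₀, map_mul, map_pow]
  have e3 : w ^ Q = a ^ Q * (g ^ Q) ^ (k + 1) / b ^ Q := by
    rw [e1, div_pow, mul_pow, ← pow_mul, ← pow_mul, mul_comm (k + 1) Q]
  have hgQ : g ^ Q ≠ 0 := pow_ne_zero _ hg
  have haQ : a ^ Q ≠ 0 := pow_ne_zero _ ha
  have hbQ : b ^ Q ≠ 0 := pow_ne_zero _ hb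
  rw [e2, e3]
  generalize S a = A' at *
  generalize S b = B' at *
  generalize S g = X at *
  generalize g ^ Q = Y at *
  generalize a ^ Q = α at *
  generalize b ^ Q = β at *
  field_simp
  rw [div_pow, mul_pow, mul_pow, mul_pow, mul_pow, mul_pow, pow_succ B' k, pow_succ α k]
  field_simp

/-- **Local datum at a crossing point.** -/
theorem local_crossing (C : Subalgebra A₀ F) (V₁ V₂ : ValuationSubring F)
    (hCV₁ : ∀ c ∈ C, c ∈ V₁) (hCV₂ : ∀ c ∈ C, c ∈ V₂)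
    (S : F ≃+* F) (hSC : ∀ c : F, S c ∈ C ↔ c ∈ C)
    (hSV₁ : ∀ y : F, S y ∈ V₁ ↔ y ∈ V₁) (hSV₂ : ∀ y : F, S y ∈ V₂ ↔ y ∈ V₂)
    (Q : ℕ) (x : Ideal ↥C) (hx : x.IsPrime) (m : ℕ) (hm : m ≠ 0)
    (hcr : Crossing C V₁ V₂ S Q m x)
    (w g G : F) (a b : ↥C) (ha : a ∉ x) (hb : b ∉ x)
    (hwab : w * (b : F) = (a : F) * g ^ m)
    (c₁ c₂ : ↥C) (hc₁ : c₁ ∉ x) (hc₂ : c₂ ∉ x) (h₁ h₂ : F)
    (hh₁ : V₁.valuation h₁ = 1) (hh₂ : V₂.valuation h₂ = 1)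
    (hw₁ : V₁.valuation (w - (c₁ : F) * h₁ ^ m) < 1)
    (hw₂ : V₂.valuation (w - (c₂ : F) * h₂ ^ m) < 1)
    (hG₁ : V₁.valuation (G - S h₁ / h₁ ^ Q) < 1) (hG₂ : V₂.valuation (G - S h₂ / h₂ ^ Q) < 1) :
    ∃ θ : F, ∃ s : ↥C, s ∉ x ∧ V₁.valuation (θ - (s : F)) < 1 ∧ V₂.valuation (θ - (s : F)) < 1 ∧
      ∃ h : S w / (w ^ Q * G ^ m) * θ ^ m ∈ C, (⟨_, h⟩ : ↥C) ∉ x := by
  obtain ⟨hP₁, hP₂, hSx, hbn₁, hbn₂, hfib⟩ := hcr
  obtain ⟨k, rfl⟩ := Nat.exists_eq_add_one_of_ne_zero hm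
  obtain ⟨hT₁, n₁, d₁, hn₁, hd₁, hnd₁, hTd₁⟩ := crossing_branch C V₁ hCV₁ S hSC hSV₁ Q x hx
    (k + 1) hm hP₁ hSx hbn₁ w g G a b ha hb hwab c₁ hc₁ h₁ hh₁ hw₁ hG₁
  obtain ⟨hT₂, n₂, d₂, hn₂, hd₂, hnd₂, hTd₂⟩ := crossing_branch C V₂ hCV₂ S hSC hSV₂ Q x hx
    (k + 1) hm hP₂ hSx hbn₂ w g G a b ha hb hwab c₂ hc₂ h₂ hh₂ hw₂ hG₂
  set T : F := S g / (g ^ Q * G) with hTdef
  have hT0 : T ≠ 0 := unit_ne_zero V₁ hT₁
  have hunit₁ : ∀ c : ↥C, c ∉ x → V₁.valuation (c : F) = 1 := by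
    intro c hc
    refine le_antisymm ((mem_iff V₁).1 (hCV₁ c c.2)) ?_
    by_contra hlt
    exact hc (hP₁ c ((nu_iff V₁).2 (not_le.mp hlt)))
  have hSnot : ∀ c : ↥C, c ∉ x → resEquiv C S hSC c ∉ x := by
    intro c hc hmem
    obtain ⟨d, hd, hde⟩ := hSx c
    have e : c ^ Q = resEquiv C S hSC c - d := by
      apply Subtype.ext
      push_cast
      rw [coe_resEquiv, hde]
      ring
    exact hc (hx.mem_of_pow_mem Q (e ▸ x.sub_mem hmem hd))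
  -- the fibre product
  have hr : n₁ * d₂ - n₂ * d₁ ∈ x := by
    have e : n₁ * d₂ - n₂ * d₁ = (n₁ - d₁) * d₂ - d₁ * (n₂ - d₂) := by ring
    rw [e]
    exact x.sub_mem (x.mul_mem_right _ hnd₁) (x.mul_mem_left _ hnd₂)
  obtain ⟨p₁, p₂, s, hs, hp₁, hp₂, hsr⟩ := hfib _ hr
  have hp₁x : p₁ ∈ x := hP₁ p₁ hp₁
  have hN₀ : s * n₁ * d₂ - p₁ ∉ x := by
    intro h
    have h2 : s * n₁ * d₂ ∈ x := by
      have e : s * n₁ * d₂ = (s * n₁ * d₂ - p₁) + p₁ := by ring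
      rw [e]
      exact x.add_mem h hp₁x
    rcases hx.mem_or_mem h2 with h3 | h3
    · rcases hx.mem_or_mem h3 with h4 | h4
      · exact hs h4
      · exact hn₁ h4
    · exact hd₂ h3
  have hD₀ : s * d₁ * d₂ ∉ x := by
    intro h
    rcases hx.mem_or_mem h with h3 | h3
    · rcases hx.mem_or_mem h3 with h4 | h4
      · exact hs h4
      · exact hd₁ h4
    · exact hd₂ h3
  have hsrF : (s : F) * ((n₁ : F) * (d₂ : F) - (n₂ : F) * (d₁ : F)) = (p₁ : F) + (p₂ : F) := by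
    have := congrArg (fun z : ↥C => (z : F)) hsr
    simpa using this
  -- `T D₀ - N₀` is small at both valuations
  have hV₁ : V₁.valuation (T * ((s * d₁ * d₂ : ↥C) : F) - ((s * n₁ * d₂ - p₁ : ↥C) : F)) < 1 := by
    have e : T * ((s * d₁ * d₂ : ↥C) : F) - ((s * n₁ * d₂ - p₁ : ↥C) : F)
        = (T * (d₁ : F) - (n₁ : F)) * ((s : F) * (d₂ : F)) + (p₁ : F) := by
      push_cast
      ring
    rw [e]
    refine Valuation.map_add_lt _ (val_mul_lt V₁ hTd₁ ?_) ((nu_iff V₁).1 hp₁)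
    exact (mem_iff V₁).1 (V₁.mul_mem _ _ (hCV₁ s s.2) (hCV₁ d₂ d₂.2))
  have hV₂ : V₂.valuation (T * ((s * d₁ * d₂ : ↥C) : F) - ((s * n₁ * d₂ - p₁ : ↥C) : F)) < 1 := by
    have e : T * ((s * d₁ * d₂ : ↥C) : F) - ((s * n₁ * d₂ - p₁ : ↥C) : F)
        = (T * (d₂ : F) - (n₂ : F)) * ((s : F) * (d₁ : F)) - (p₂ : F) := by
      push_cast
      linear_combination -hsrF
    rw [e]
    refine Valuation.map_sub_lt _ (val_mul_lt V₂ hTd₂ ?_) ((nu_iff V₂).1 hp₂)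
    exact (mem_iff V₂).1 (V₂.mul_mem _ _ (hCV₂ s s.2) (hCV₂ d₁ d₁.2))
  -- the unit `A / B`
  have hAx : resEquiv C S hSC a * b ^ Q ∉ x := by
    intro h
    rcases hx.mem_or_mem h with h | h
    · exact hSnot a ha h
    · exact hb (hx.mem_of_pow_mem _ h)
  have hBx : resEquiv C S hSC b * a ^ Q ∉ x := by
    intro h
    rcases hx.mem_or_mem h with h | h
    · exact hSnot b hb h
    · exact ha (hx.mem_of_pow_mem _ h)
  have hsx : resEquiv C S hSC b * a ^ Q * (s * d₁ * d₂) ∉ x := fun h =>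
    (hx.mem_or_mem h).elim hBx hD₀
  have hc0 : resEquiv C S hSC a * b ^ Q * (resEquiv C S hSC b * a ^ Q) ^ k
      * (s * n₁ * d₂ - p₁) ^ (k + 1) ∉ x := by
    intro h
    rcases hx.mem_or_mem h with h | h
    · rcases hx.mem_or_mem h with h | h
      · exact hAx h
      · exact hBx (hx.mem_of_pow_mem _ h)
    · exact hN₀ (hx.mem_of_pow_mem _ h)
  have hBu : V₁.valuation ((resEquiv C S hSC b * a ^ Q : ↥C) : F) = 1 := hunit₁ _ hBx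
  have hB0 := unit_ne_zero V₁ hBu
  refine ⟨((resEquiv C S hSC b * a ^ Q : ↥C) : F) * ((s * n₁ * d₂ - p₁ : ↥C) : F) / T,
    resEquiv C S hSC b * a ^ Q * (s * d₁ * d₂), hsx, ?_, ?_, ?_⟩
  · have e : ((resEquiv C S hSC b * a ^ Q : ↥C) : F) * ((s * n₁ * d₂ - p₁ : ↥C) : F) / T
        - ((resEquiv C S hSC b * a ^ Q * (s * d₁ * d₂) : ↥C) : F)
        = -((T * ((s * d₁ * d₂ : ↥C) : F) - ((s * n₁ * d₂ - p₁ : ↥C) : F))
            * (((resEquiv C S hSC b * a ^ Q : ↥C) : F) * T⁻¹)) :=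
      theta_sub T _ _ _ hT0
    rw [e, Valuation.map_neg]
    refine val_mul_lt V₁ hV₁ ?_
    rw [map_mul, map_inv₀, hT₁, inv_one, mul_one]
    exact (mem_iff V₁).1 (hCV₁ _ (resEquiv C S hSC b * a ^ Q).2)
  · have e : ((resEquiv C S hSC b * a ^ Q : ↥C) : F) * ((s * n₁ * d₂ - p₁ : ↥C) : F) / T
        - ((resEquiv C S hSC b * a ^ Q * (s * d₁ * d₂) : ↥C) : F)
        = -((T * ((s * d₁ * d₂ : ↥C) : F) - ((s * n₁ * d₂ - p₁ : ↥C) : F))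
            * (((resEquiv C S hSC b * a ^ Q : ↥C) : F) * T⁻¹)) :=
      theta_sub T _ _ _ hT0
    rw [e, Valuation.map_neg]
    refine val_mul_lt V₂ hV₂ ?_
    rw [map_mul, map_inv₀, hT₂, inv_one, mul_one]
    exact (mem_iff V₂).1 (hCV₂ _ (resEquiv C S hSC b * a ^ Q).2)
  · refine exists_mem_not_mem_of_eq C x _ _ hc0 ?_
    -- the algebraic identity `f θ ^ m = A B ^ k N₀ ^ m`
    have ha0 : (a : F) ≠ 0 := unit_ne_zero V₁ (hunit₁ a ha)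
    have hb0 : (b : F) ≠ 0 := unit_ne_zero V₁ (hunit₁ b hb)
    have hw0 : w ≠ 0 := by
      intro h0
      rw [h0, zero_sub, Valuation.map_neg] at hw₁
      have : V₁.valuation ((c₁ : F) * h₁ ^ (k + 1)) = 1 :=
        unit_mul V₁ (hunit₁ c₁ hc₁) (unit_pow V₁ hh₁ _)
      rw [this] at hw₁
      exact lt_irrefl _ hw₁
    have hg0 : g ≠ 0 := by
      intro h0
      rw [h0, zero_pow (Nat.succ_ne_zero k), mul_zero] at hwab
      exact (mul_ne_zero hw0 hb0) hwab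
    have hG0 : G ≠ 0 := by
      intro h0
      apply hT0
      rw [hTdef, h0, mul_zero, div_zero]
    exact frob_identity S Q k w g G (a : F) (b : F) _ ha0 hb0 hg0 hG0 hwab

/-- `f = S w / (w ^ Q G ^ m)` is a unit of `V`, congruent to `1` modulo `m_V`. -/
theorem f_cg (V : ValuationSubring F) (hAV : ∀ a : A₀, algebraMap A₀ F a ∈ V) (ϖ : A₀)
    (hϖV : V.valuation (algebraMap A₀ F ϖ) < 1) (S : F ≃+* F) (hSV : ∀ y : F, S y ∈ V ↔ y ∈ V)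
    (Q m : ℕ)
    (hSA : ∀ a : A₀, ∃ a' : A₀, S (algebraMap A₀ F a) = algebraMap A₀ F a' ∧ ϖ ∣ a' - a ^ Q)
    (w : F) (c : A₀ˣ) (h : F) (hh : V.valuation h = 1)
    (hw : V.valuation (w - algebraMap A₀ F c * h ^ m) < 1)
    (G : F) (hG : V.valuation (G - S h / h ^ Q) < 1) :
    V.valuation (S w / (w ^ Q * G ^ m)) = 1 ∧ V.valuation (S w / (w ^ Q * G ^ m) - 1) < 1 := by
  have hcu : V.valuation (algebraMap A₀ F c) = 1 := by
    refine le_antisymm ((mem_iff V).1 (hAV c)) ?_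
    have h1 : algebraMap A₀ F (c : A₀) * algebraMap A₀ F ((c⁻¹ : A₀ˣ) : A₀) = 1 := by
      rw [← map_mul, Units.mul_inv, map_one]
    have h2 : V.valuation (algebraMap A₀ F ((c⁻¹ : A₀ˣ) : A₀)) ≤ 1 := (mem_iff V).1 (hAV _)
    have h3 : V.valuation (algebraMap A₀ F (c : A₀)) * V.valuation (algebraMap A₀ F ((c⁻¹ : A₀ˣ) : A₀))
        = 1 := by rw [← map_mul, h1, map_one]
    calc (1 : V.ValueGroup) = V.valuation (algebraMap A₀ F (c : A₀))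
          * V.valuation (algebraMap A₀ F ((c⁻¹ : A₀ˣ) : A₀)) := h3.symm
      _ ≤ V.valuation (algebraMap A₀ F (c : A₀)) * 1 := mul_le_mul' le_rfl h2
      _ = V.valuation (algebraMap A₀ F (c : A₀)) := mul_one _
  have hh0 := unit_ne_zero V hh
  have hShu : V.valuation (S h) = 1 := (map_unit_iff V S hSV h).2 hh
  have hG'u : V.valuation (S h / h ^ Q) = 1 := unit_div V hShu (unit_pow V hh Q)
  have hGu : V.valuation G = 1 := val_eq_one_of_cg V hG hG'u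
  have hu0 : V.valuation (algebraMap A₀ F c * h ^ m) = 1 := unit_mul V hcu (unit_pow V hh m)
  have hwu : V.valuation w = 1 := val_eq_one_of_cg V hw hu0
  obtain ⟨a', ha', e, he⟩ := hSA c
  have hSc : V.valuation (S (algebraMap A₀ F c) - algebraMap A₀ F c ^ Q) < 1 := by
    rw [ha', ← map_pow, ← map_sub, he, map_mul]
    exact val_mul_lt V hϖV ((mem_iff V).1 (hAV e))
  -- `X = S w ≡ Z = c ^ Q (S h) ^ m`
  have hXZ : V.valuation (S w - algebraMap A₀ F c ^ Q * S h ^ m) < 1 := by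
    have h1 : V.valuation (S w - S (algebraMap A₀ F c * h ^ m)) < 1 := cg_map V S hSV hw
    rw [map_mul, map_pow] at h1
    refine cg_trans V h1 ?_
    rw [← sub_mul]
    exact val_mul_lt V hSc (unit_pow V hShu m).le
  -- `Y = w ^ Q G ^ m ≡ Z`
  have hYZ : V.valuation (w ^ Q * G ^ m - algebraMap A₀ F c ^ Q * S h ^ m) < 1 := by
    have h1 : V.valuation (w ^ Q * G ^ m
        - (algebraMap A₀ F c * h ^ m) ^ Q * (S h / h ^ Q) ^ m) < 1 :=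
      cg_mul V (cg_pow V hw hwu.le hu0.le Q) (cg_pow V hG hGu.le hG'u.le m)
        (unit_pow V hwu Q).le (unit_pow V hG'u m).le
    have e2 : (algebraMap A₀ F c * h ^ m) ^ Q * (S h / h ^ Q) ^ m
        = algebraMap A₀ F c ^ Q * S h ^ m := by
      rw [mul_pow, div_pow, ← pow_mul, ← pow_mul, mul_comm m Q]
      have : h ^ (Q * m) ≠ 0 := pow_ne_zero _ hh0
      field_simp
    rw [e2] at h1
    exact h1
  have hZu : V.valuation (algebraMap A₀ F c ^ Q * S h ^ m) = 1 :=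
    unit_mul V (unit_pow V hcu Q) (unit_pow V hShu m)
  have hYu : V.valuation (w ^ Q * G ^ m) = 1 := unit_mul V (unit_pow V hwu Q) (unit_pow V hGu m)
  have hXu : V.valuation (S w) = 1 := (map_unit_iff V S hSV w).2 hwu
  have hY0 := unit_ne_zero V hYu
  refine ⟨unit_div V hXu hYu, ?_⟩
  have e3 : S w / (w ^ Q * G ^ m) - 1 = (S w - w ^ Q * G ^ m) * (w ^ Q * G ^ m)⁻¹ := by
    rw [sub_mul, mul_inv_cancel₀ hY0, div_eq_mul_inv]
  rw [e3]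
  refine val_mul_lt V (cg_trans V hXZ (cg_symm V hYZ)) ?_
  rw [map_inv₀, hYu, inv_one]

/-- The factorisation `f B = A T ^ m` from the Cartier data at `x` and at `S⁻¹ x`. -/
theorem frob_fT (S : F ≃+* F) (Q m : ℕ) (w g g' G a b a' b' : F) (hw : w ≠ 0) (hg : g ≠ 0)
    (hG : G ≠ 0) (hwab : w * b = a * g ^ m) (hwab' : w * b' = a' * g' ^ m) :
    S w / (w ^ Q * G ^ m) * (S b' * a ^ Q) = S a' * b ^ Q * (S g' / (g ^ Q * G)) ^ m := by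
  have e2 : S w * S b' = S a' * S g' ^ m := by
    rw [← map_mul, hwab', map_mul, map_pow]
  have e3 : w ^ Q * b ^ Q = a ^ Q * (g ^ Q) ^ m := by
    rw [← mul_pow, hwab, mul_pow, ← pow_mul, ← pow_mul, mul_comm m Q]
  have hwQ : w ^ Q ≠ 0 := pow_ne_zero _ hw
  have hgQ : g ^ Q ≠ 0 := pow_ne_zero _ hg
  have hGm : G ^ m ≠ 0 := pow_ne_zero _ hG
  rw [div_pow, mul_pow]
  have hgQm : (g ^ Q) ^ m ≠ 0 := pow_ne_zero _ hgQ
  rw [div_mul_eq_mul_div, mul_div_assoc', div_eq_div_iff (mul_ne_zero hwQ hGm)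
    (mul_ne_zero hgQm hGm)]
  linear_combination (a ^ Q * (g ^ Q) ^ m * G ^ m) * e2 - (S a' * S g' ^ m * G ^ m) * e3

/-- **The local datum of `f = S w / (w ^ Q G ^ m)` at a closed point of a chart.** -/
theorem local_datum (ϖ : A₀) (hϖ0 : algebraMap A₀ F ϖ ≠ 0) (C : Subalgebra A₀ F)
    (V₁ V₂ : ValuationSubring F) (hu₁ : IsUnif ϖ V₁) (hu₂ : IsUnif ϖ V₂)
    (hCV₁ : ∀ c ∈ C, c ∈ V₁) (hCV₂ : ∀ c ∈ C, c ∈ V₂)
    (hsat : ∀ y : F, y ∈ V₁ → y ∈ V₂ → ϖ • y ∈ C → y ∈ C)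
    (harch₁ : ∀ y : F, ∃ n : ℕ, ϖ ^ n • y ∈ V₁) (harch₂ : ∀ y : F, ∃ n : ℕ, ϖ ^ n • y ∈ V₂)
    (Q : ℕ) (hQ : Q ≠ 0) (S : F ≃+* F) (hSC : ∀ c : F, S c ∈ C ↔ c ∈ C)
    (hSV₁ : ∀ y : F, S y ∈ V₁ ↔ y ∈ V₁) (hSV₂ : ∀ y : F, S y ∈ V₂ ↔ y ∈ V₂)
    (hSA : ∀ a : A₀, ∃ a' : A₀, S (algebraMap A₀ F a) = algebraMap A₀ F a' ∧ ϖ ∣ a' - a ^ Q)
    (m : ℕ) (hm : m ≠ 0) (w : F) (hw0 : w ≠ 0) (c₁ c₂ : A₀ˣ) (h₁ h₂ : F)
    (hh₁ : V₁.valuation h₁ = 1) (hh₂ : V₂.valuation h₂ = 1)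
    (hw₁ : V₁.valuation (w - algebraMap A₀ F c₁ * h₁ ^ m) < 1)
    (hw₂ : V₂.valuation (w - algebraMap A₀ F c₂ * h₂ ^ m) < 1)
    (G : F) (hG0 : G ≠ 0)
    (hG₁ : V₁.valuation (G - S h₁ / h₁ ^ Q) < 1) (hG₂ : V₂.valuation (G - S h₂ / h₂ ^ Q) < 1)
    (hf1₁ : V₁.valuation (S w / (w ^ Q * G ^ m) - 1) < 1)
    (hf1₂ : V₂.valuation (S w / (w ^ Q * G ^ m) - 1) < 1)
    (hcart : ∀ x : Ideal ↥C, x.IsMaximal → algebraMap A₀ ↥C ϖ ∈ x →
      ∃ g : F, g ≠ 0 ∧ ∃ a b : ↥C, a ∉ x ∧ b ∉ x ∧ w * (b : F) = (a : F) * g ^ m)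
    (x : Ideal ↥C) (hx : x.IsMaximal) (hπx : algebraMap A₀ ↥C ϖ ∈ x)
    (hpt : PointFrob C V₁ V₂ S Q m x) :
    ∃ θ : F, ∃ s : ↥C, s ∉ x ∧ V₁.valuation (θ - (s : F)) < 1 ∧ V₂.valuation (θ - (s : F)) < 1 ∧
      ∃ h : S w / (w ^ Q * G ^ m) * θ ^ m ∈ C, (⟨_, h⟩ : ↥C) ∉ x := by
  have hxp : x.IsPrime := hx.isPrime
  -- `P₁ ∩ P₂ ⊆ x`
  have hPP : ∀ c : ↥C, (c : F) ∈ V₁.nonunits → (c : F) ∈ V₂.nonunits → c ∈ x := by
    intro c h1 h2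
    obtain ⟨d₁, hd₁, e₁⟩ := (hu₁ _).1 h1
    obtain ⟨d₂, hd₂, e₂⟩ := (hu₂ _).1 h2
    have hdd : d₁ = d₂ := by
      have h3 : ϖ • d₁ = ϖ • d₂ := by rw [← e₁, ← e₂]
      rw [Algebra.smul_def, Algebra.smul_def] at h3
      exact mul_left_cancel₀ hϖ0 h3
    have hdC : d₁ ∈ C := hsat d₁ hd₁ (hdd ▸ hd₂) (by rw [← e₁]; exact c.2)
    have e : c = algebraMap A₀ ↥C ϖ * ⟨d₁, hdC⟩ := by
      apply Subtype.ext
      rw [e₁, Algebra.smul_def]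
      rfl
    rw [e]
    exact x.mul_mem_right _ hπx
  -- the point `x' = S⁻¹ x`
  have hx'max : (x.comap (resEquiv C S hSC : ↥C →+* ↥C)).IsMaximal :=
    Ideal.comap_isMaximal_of_surjective _ (resEquiv C S hSC).surjective
  have hπx' : algebraMap A₀ ↥C ϖ ∈ x.comap (resEquiv C S hSC : ↥C →+* ↥C) := by
    rw [Ideal.mem_comap]
    obtain ⟨a', ha', e, he⟩ := hSA ϖ
    obtain ⟨k, rfl⟩ := Nat.exists_eq_add_one_of_ne_zero hQ
    have e2 : (resEquiv C S hSC : ↥C →+* ↥C) (algebraMap A₀ ↥C ϖ)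
        = algebraMap A₀ ↥C ϖ * algebraMap A₀ ↥C (e + ϖ ^ k) := by
      apply Subtype.ext
      have h1 : a' = ϖ * (e + ϖ ^ k) := by
        have : a' = (a' - ϖ ^ (k + 1)) + ϖ ^ (k + 1) := by ring
        rw [this, he]
        ring
      show S (algebraMap A₀ F ϖ) = algebraMap A₀ F ϖ * algebraMap A₀ F (e + ϖ ^ k)
      rw [ha', h1, map_mul]
    rw [e2]
    exact x.mul_mem_right _ hπx
  obtain ⟨g, hg0, a, b, ha, hb, hwab⟩ := hcart x hx hπx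
  rcases hpt with hoc | hoc | hcr
  · -- one component, on `V₁`
    obtain ⟨g', hg'0, a', b', ha', hb', hwab'⟩ := hcart _ hx'max hπx'
    rw [Ideal.mem_comap] at ha' hb'
    have hAx : resEquiv C S hSC a' * b ^ Q ∉ x := fun h =>
      (hxp.mem_or_mem h).elim ha' fun h => hb (hxp.mem_of_pow_mem _ h)
    have hBx : resEquiv C S hSC b' * a ^ Q ∉ x := fun h =>
      (hxp.mem_or_mem h).elim hb' fun h => ha (hxp.mem_of_pow_mem _ h)
    have hT0 : S g' / (g ^ Q * G) ≠ 0 :=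
      div_ne_zero ((map_ne_zero S).2 hg'0) (mul_ne_zero (pow_ne_zero _ hg0) hG0)
    refine local_oneComp ϖ C V₁ V₂ hCV₁ hCV₂ hu₂ harch₂ x hxp hPP m hm hoc _
      (S g' / (g ^ Q * G)) _ _ hAx hBx hT0 hf1₁ ?_
    exact frob_fT S Q m w g g' G (a : F) (b : F) (a' : F) (b' : F) hw0 hg0 hG0 hwab hwab'
  · -- one component, on `V₂`
    obtain ⟨g', hg'0, a', b', ha', hb', hwab'⟩ := hcart _ hx'max hπx'
    rw [Ideal.mem_comap] at ha' hb'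
    have hAx : resEquiv C S hSC a' * b ^ Q ∉ x := fun h =>
      (hxp.mem_or_mem h).elim ha' fun h => hb (hxp.mem_of_pow_mem _ h)
    have hBx : resEquiv C S hSC b' * a ^ Q ∉ x := fun h =>
      (hxp.mem_or_mem h).elim hb' fun h => ha (hxp.mem_of_pow_mem _ h)
    have hT0 : S g' / (g ^ Q * G) ≠ 0 :=
      div_ne_zero ((map_ne_zero S).2 hg'0) (mul_ne_zero (pow_ne_zero _ hg0) hG0)
    obtain ⟨θ, s, hs, h2, h1, h3⟩ := local_oneComp ϖ C V₂ V₁ hCV₂ hCV₁ hu₁ harch₁ x hxp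
      (fun c h2 h1 => hPP c h1 h2) m hm hoc _
      (S g' / (g ^ Q * G)) _ _ hAx hBx hT0 hf1₂
      (frob_fT S Q m w g g' G (a : F) (b : F) (a' : F) (b' : F) hw0 hg0 hG0 hwab hwab')
    exact ⟨θ, s, hs, h1, h2, h3⟩
  · -- crossing point
    have hcx : ∀ c : A₀ˣ, algebraMap A₀ ↥C (c : A₀) ∉ x := by
      intro c hc
      apply hxp.ne_top
      rw [Ideal.eq_top_iff_one]
      have : (1 : ↥C) = algebraMap A₀ ↥C (c : A₀) * algebraMap A₀ ↥C ((c⁻¹ : A₀ˣ) : A₀) := by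
        rw [← map_mul, Units.mul_inv, map_one]
      rw [this]
      exact x.mul_mem_right _ hc
    exact local_crossing C V₁ V₂ hCV₁ hCV₂ S hSC hSV₁ hSV₂ Q x hxp m hm hcr w g G a b ha hb hwab
      (algebraMap A₀ ↥C (c₁ : A₀)) (algebraMap A₀ ↥C (c₂ : A₀)) (hcx c₁) (hcx c₂) h₁ h₂ hh₁ hh₂
      hw₁ hw₂ hG₁ hG₂

end Points

section Main

/-- **(FROB-CECH).**  Charts and valuation rings as in
`H77.exists_pow_mul_mem_of_cartier_two_inter`, with `V₁ ≠ V₂` discrete; `S` an automorphism of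
`F` preserving the charts and the two valuation rings and inducing the `Q`-power map on the
residue field of `A₀`.  If `w` is a constant times an `m`-th power modulo `m_{V₁}` and modulo
`m_{V₂}`, satisfies the Cartier condition at every closed point of the special fibre of both
charts, and every such point is of type `PointFrob`, then `S w = a w ^ Q h ^ m` with `a ∈ A₀`,
`h ≠ 0`. -/
theorem frob_cech
    {A₀ : Type*} [CommRing A₀] [IsDomain A₀] [IsDiscreteValuationRing A₀]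
    {F : Type*} [Field F] [Algebra A₀ F] [FaithfulSMul A₀ F]
    (ϖ : A₀) (hϖ : Irreducible ϖ) (m : ℕ) (hm : IsUnit (m : A₀)) (j : F) (hj0 : j ≠ 0)
    (C₁ C₂ : Subalgebra A₀ F) [IsIntegrallyClosed ↥C₁] [IsIntegrallyClosed ↥C₂]
    (hj₁ : j ∈ C₁) (hj₂ : j⁻¹ ∈ C₂)
    (hfin₁ : ∃ s : Finset F, (C₁ : Set F) =
      Submodule.span (Algebra.adjoin A₀ ({j} : Set F)) (s : Set F))
    (hfrac : ∀ x : F, ∃ a ∈ C₁, ∃ b ∈ C₁, b ≠ 0 ∧ x = a / b)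
    (hglue : ∀ x : F, (∃ n : ℕ, j ^ n * x ∈ C₁) ↔ (∃ n : ℕ, j⁻¹ ^ n * x ∈ C₂))
    (V₁ V₂ : ValuationSubring F) (hu₁ : IsUnif ϖ V₁) (hu₂ : IsUnif ϖ V₂)
    (hC₁V₁ : ∀ c ∈ C₁, c ∈ V₁) (hC₁V₂ : ∀ c ∈ C₁, c ∈ V₂)
    (hC₂V₁ : ∀ c ∈ C₂, c ∈ V₁) (hC₂V₂ : ∀ c ∈ C₂, c ∈ V₂)
    (hjV₁ : j⁻¹ ∈ V₁) (hjV₂ : j⁻¹ ∈ V₂)
    (hsat₁ : ∀ y : F, y ∈ V₁ → y ∈ V₂ → ϖ • y ∈ C₁ → y ∈ C₁)
    (hsat₂ : ∀ y : F, y ∈ V₁ → y ∈ V₂ → ϖ • y ∈ C₂ → y ∈ C₂)
    (hconst₁ : ∀ c₁ ∈ C₁, ∀ c₂ ∈ C₂, c₁ - c₂ ∈ V₁.nonunits →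
      ∃ a : A₀, c₁ - algebraMap A₀ F a ∈ V₁.nonunits)
    (hconst₂ : ∀ c₁ ∈ C₁, ∀ c₂ ∈ C₂, c₁ - c₂ ∈ V₂.nonunits →
      ∃ a : A₀, c₁ - algebraMap A₀ F a ∈ V₂.nonunits)
    (hinter : ∀ c ∈ C₁, c ∈ C₂ → ∃ a : A₀, c = algebraMap A₀ F a)
    (hne : V₁ ≠ V₂)
    (harch₁ : ∀ y : F, ∃ n : ℕ, ϖ ^ n • y ∈ V₁) (harch₂ : ∀ y : F, ∃ n : ℕ, ϖ ^ n • y ∈ V₂)
    (Q : ℕ) (hQ : Q ≠ 0) (S : F ≃+* F)
    (hSC₁ : ∀ c : F, S c ∈ C₁ ↔ c ∈ C₁) (hSC₂ : ∀ c : F, S c ∈ C₂ ↔ c ∈ C₂)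
    (hSV₁ : ∀ y : F, S y ∈ V₁ ↔ y ∈ V₁) (hSV₂ : ∀ y : F, S y ∈ V₂ ↔ y ∈ V₂)
    (hSA : ∀ a : A₀, ∃ a' : A₀, S (algebraMap A₀ F a) = algebraMap A₀ F a' ∧ ϖ ∣ a' - a ^ Q)
    (w : F) (c₁ c₂ : A₀ˣ) (h₁ h₂ : F)
    (hh₁₁ : V₁.valuation h₁ = 1) (hh₁₂ : V₂.valuation h₁ = 1)
    (hh₂₁ : V₁.valuation h₂ = 1) (hh₂₂ : V₂.valuation h₂ = 1)
    (hw₁ : w - algebraMap A₀ F c₁ * h₁ ^ m ∈ V₁.nonunits)
    (hw₂ : w - algebraMap A₀ F c₂ * h₂ ^ m ∈ V₂.nonunits)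
    (hcart₁ : ∀ x : Ideal ↥C₁, x.IsMaximal → algebraMap A₀ ↥C₁ ϖ ∈ x →
      ∃ g : F, g ≠ 0 ∧ ∃ a b : ↥C₁, a ∉ x ∧ b ∉ x ∧ w * (b : F) = (a : F) * g ^ m)
    (hcart₂ : ∀ x : Ideal ↥C₂, x.IsMaximal → algebraMap A₀ ↥C₂ ϖ ∈ x →
      ∃ g : F, g ≠ 0 ∧ ∃ a b : ↥C₂, a ∉ x ∧ b ∉ x ∧ w * (b : F) = (a : F) * g ^ m)
    (hpt₁ : ∀ x : Ideal ↥C₁, x.IsMaximal → algebraMap A₀ ↥C₁ ϖ ∈ x → PointFrob C₁ V₁ V₂ S Q m x)
    (hpt₂ : ∀ x : Ideal ↥C₂, x.IsMaximal → algebraMap A₀ ↥C₂ ϖ ∈ x → PointFrob C₂ V₁ V₂ S Q m x) :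
    ∃ (a : A₀) (h : F), h ≠ 0 ∧ S w = algebraMap A₀ F a * w ^ Q * h ^ m := by
  have hϖ0 : algebraMap A₀ F ϖ ≠ 0 := fun h0 =>
    hϖ.ne_zero (FaithfulSMul.algebraMap_injective A₀ F (by rw [h0, map_zero]))
  have hm0 : m ≠ 0 := by
    rintro rfl
    rw [Nat.cast_zero] at hm
    exact not_isUnit_zero hm
  have hA₁ : ∀ a : A₀, algebraMap A₀ F a ∈ V₁ := fun a => hC₁V₁ _ (C₁.algebraMap_mem a)
  have hA₂ : ∀ a : A₀, algebraMap A₀ F a ∈ V₂ := fun a => hC₁V₂ _ (C₁.algebraMap_mem a)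
  have hϖ₁ : V₁.valuation (algebraMap A₀ F ϖ) < 1 :=
    (nu_iff V₁).1 ((hu₁ _).2 ⟨1, V₁.one_mem, by rw [Algebra.smul_def, mul_one]⟩)
  have hϖ₂ : V₂.valuation (algebraMap A₀ F ϖ) < 1 :=
    (nu_iff V₂).1 ((hu₂ _).2 ⟨1, V₂.one_mem, by rw [Algebra.smul_def, mul_one]⟩)
  rw [nu_iff] at hw₁ hw₂
  -- the correction `G`
  obtain ⟨θ, hθ₁, hθ₂⟩ := exists_approx ϖ V₁ V₂ hu₁ hu₂ hne
  have hg₁₁ : V₁.valuation (S h₁ / h₁ ^ Q) = 1 :=
    unit_div V₁ ((map_unit_iff V₁ S hSV₁ h₁).2 hh₁₁) (unit_pow V₁ hh₁₁ Q)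
  have hg₁₂ : V₂.valuation (S h₁ / h₁ ^ Q) = 1 :=
    unit_div V₂ ((map_unit_iff V₂ S hSV₂ h₁).2 hh₁₂) (unit_pow V₂ hh₁₂ Q)
  have hg₂₁ : V₁.valuation (S h₂ / h₂ ^ Q) = 1 :=
    unit_div V₁ ((map_unit_iff V₁ S hSV₁ h₂).2 hh₂₁) (unit_pow V₁ hh₂₁ Q)
  have hg₂₂ : V₂.valuation (S h₂ / h₂ ^ Q) = 1 :=
    unit_div V₂ ((map_unit_iff V₂ S hSV₂ h₂).2 hh₂₂) (unit_pow V₂ hh₂₂ Q)
  set G : F := S h₁ / h₁ ^ Q * (1 - θ) + S h₂ / h₂ ^ Q * θ with hGdef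
  have hG₁ : V₁.valuation (G - S h₁ / h₁ ^ Q) < 1 := by
    have e : G - S h₁ / h₁ ^ Q = θ * (S h₂ / h₂ ^ Q - S h₁ / h₁ ^ Q) := by
      rw [hGdef]
      ring
    rw [e]
    exact val_mul_lt V₁ hθ₁ (Valuation.map_sub_le _ hg₂₁.le hg₁₁.le)
  have hG₂ : V₂.valuation (G - S h₂ / h₂ ^ Q) < 1 := by
    have e : G - S h₂ / h₂ ^ Q = (θ - 1) * (S h₂ / h₂ ^ Q - S h₁ / h₁ ^ Q) := by
      rw [hGdef]
      ring
    rw [e]
    exact val_mul_lt V₂ hθ₂ (Valuation.map_sub_le _ hg₂₂.le hg₁₂.le)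
  have hG0 : G ≠ 0 := unit_ne_zero V₁ (val_eq_one_of_cg V₁ hG₁ hg₁₁)
  obtain ⟨hf₁, hf1₁⟩ := f_cg V₁ hA₁ ϖ hϖ₁ S hSV₁ Q m hSA w c₁ h₁ hh₁₁ hw₁ G hG₁
  obtain ⟨hf₂, hf1₂⟩ := f_cg V₂ hA₂ ϖ hϖ₂ S hSV₂ Q m hSA w c₂ h₂ hh₂₂ hw₂ G hG₂
  have hw0 : w ≠ 0 := by
    intro h0
    rw [h0, zero_sub, Valuation.map_neg] at hw₁
    have hcu : V₁.valuation (algebraMap A₀ F c₁ * h₁ ^ m) = 1 := by
      refine unit_mul V₁ ?_ (unit_pow V₁ hh₁₁ m)
      refine le_antisymm ((mem_iff V₁).1 (hA₁ c₁)) ?_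
      have h1 : algebraMap A₀ F (c₁ : A₀) * algebraMap A₀ F ((c₁⁻¹ : A₀ˣ) : A₀) = 1 := by
        rw [← map_mul, Units.mul_inv, map_one]
      have h2 : V₁.valuation (algebraMap A₀ F ((c₁⁻¹ : A₀ˣ) : A₀)) ≤ 1 := (mem_iff V₁).1 (hA₁ _)
      have h3 : V₁.valuation (algebraMap A₀ F (c₁ : A₀))
          * V₁.valuation (algebraMap A₀ F ((c₁⁻¹ : A₀ˣ) : A₀)) = 1 := by
        rw [← map_mul, h1, map_one]
      calc (1 : V₁.ValueGroup) = V₁.valuation (algebraMap A₀ F (c₁ : A₀))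
            * V₁.valuation (algebraMap A₀ F ((c₁⁻¹ : A₀ˣ) : A₀)) := h3.symm
        _ ≤ V₁.valuation (algebraMap A₀ F (c₁ : A₀)) * 1 := mul_le_mul' le_rfl h2
        _ = V₁.valuation (algebraMap A₀ F (c₁ : A₀)) := mul_one _
    rw [hcu] at hw₁
    exact lt_irrefl _ hw₁
  obtain ⟨a, h, hh0, hfh⟩ := cech_two_inter ϖ hϖ m hm j hj0 C₁ C₂ hj₁ hj₂ hfin₁ hfrac hglue
    V₁ V₂ hu₁ hu₂ hC₁V₁ hC₁V₂ hC₂V₁ hC₂V₂ hjV₁ hjV₂ hsat₁ hsat₂ hconst₁ hconst₂ hinter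
    (S w / (w ^ Q * G ^ m)) hf₁ hf₂ hf1₁ hf1₂
    (fun x hx hπx => local_datum ϖ hϖ0 C₁ V₁ V₂ hu₁ hu₂ hC₁V₁ hC₁V₂ hsat₁ harch₁ harch₂ Q hQ S
      hSC₁ hSV₁ hSV₂ hSA m hm0 w hw0 c₁ c₂ h₁ h₂ hh₁₁ hh₂₂ hw₁ hw₂ G hG0 hG₁ hG₂ hf1₁ hf1₂
      hcart₁ x hx hπx (hpt₁ x hx hπx))
    (fun x hx hπx => local_datum ϖ hϖ0 C₂ V₁ V₂ hu₁ hu₂ hC₂V₁ hC₂V₂ hsat₂ harch₁ harch₂ Q hQ S
      hSC₂ hSV₁ hSV₂ hSA m hm0 w hw0 c₁ c₂ h₁ h₂ hh₁₁ hh₂₂ hw₁ hw₂ G hG0 hG₁ hG₂ hf1₁ hf1₂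
      hcart₂ x hx hπx (hpt₂ x hx hπx))
  refine ⟨a, G / h, div_ne_zero hG0 hh0, ?_⟩
  have hwQ : w ^ Q ≠ 0 := pow_ne_zero _ hw0
  have hGm : G ^ m ≠ 0 := pow_ne_zero _ hG0
  have hhm : h ^ m ≠ 0 := pow_ne_zero _ hh0
  rw [← hfh, div_pow]
  field_simp

end Main

end Fermat.Agent.S35.H27
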