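/-
S35, geometry side (helper27): THE ROOT of S35-GEO.

* `KummerNewPow N q p` : the function-level target at level `N q` (power form): for a Frobenius
  `σ` at `q` and a function `u` on `X₀(N q)` whose divisor is divisible by `m = p ^ n` and whose
  two norms to level `N` are constants times `m`-th powers (`u` is a Kummer function of a `q`-new
  `m`-torsion class), the function `w = σ² u / u` satisfies `σ² w = c · w ^ (q²) · W ^ m`.
* `FrobData`, `FrobModelStatement` : the model leaf of S35 — a two-chart model `D : H30.VData`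
  (the same object as in Program B' for S34, with any inertia element, e.g. `τ = 1`), an
  automorphism `S₀` of its function field inducing `σ²`, the reductions of `w` modulo the two
  Gauss rings (GA), the Cartier condition for `w` and the point types at all closed points of the
  special fibre.
* `kummerNewPow_of_frobModel : FrobModelStatement → KummerNewPow N q p` at the levels `N q`
  satisfying `LevelHyp2` — ONE application of `frob_cech`.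
-/
import Fermat.Agent.S34.H30.Model
import Fermat.Agent.S35.H27.FrobCech
import Fermat.Agent.S37.H36.Along

set_option autoImplicit false
set_option linter.style.haveILetI false

open AlgebraicCurve ModularCurve

noncomputable section

namespace Fermat.Agent.S35.H27

open Fermat.Agent.S34.H27 Fermat.Agent.S34.H30 Fermat.Agent.S34.H10 Fermat.Agent.S37.H36

/-- **The function-level target of S35-GEO, power form.** -/
def KummerNewPow (N q p : ℕ) [NeZero N] [NeZero q] : Prop :=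
  ∀ (n : ℕ) (A : ValuationSubring Qb), A.LiesOverPrime q →
    ∀ σ : Qb ≃ₐ[ℚ] Qb, A.IsFrobeniusAt σ q →
    ∀ u : FF (N * q), u ≠ 0 → (∀ v : Place Qb (FF (N * q)), ((p ^ n : ℕ) : ℤ) ∣ v.ord u) →
      (∃ (c : Qb) (h : FF N),
        normAlong (heckeAlphaBar Qb N q) u = algebraMap Qb (FF N) c * h ^ (p ^ n)) →
      (∃ (c : Qb) (h : FF N),
        normAlong (heckeBetaBar Qb N q) u = algebraMap Qb (FF N) c * h ^ (p ^ n)) →
      ∃ (c : Qb) (W : FF (N * q)), W ≠ 0 ∧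
        gal (N * q) σ (gal (N * q) σ (gal (N * q) σ (gal (N * q) σ u) / u))
          = algebraMap Qb (FF (N * q)) c * (gal (N * q) σ (gal (N * q) σ u) / u) ^ (q ^ 2)
            * W ^ (p ^ n)

/-- The Frobenius data on a two-valuation model: `S₀` induces `S` (the square of a Frobenius) on
the function field, preserves the charts and the two Gauss rings, and is the `Q`-power map on the
residue field of the base; the two Gauss rings are distinct and discrete. -/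
structure FrobData {M : ℕ} (D : VData M) (Q : ℕ) (S : FF M ≃+* FF M) (S₀ : D.F₀ ≃+* D.F₀) :
    Prop where
  ne : D.V₁ ≠ D.V₂
  arch₁ : ∀ y : D.F₀, ∃ n : ℕ, D.ϖ ^ n • y ∈ D.V₁
  arch₂ : ∀ y : D.F₀, ∃ n : ℕ, D.ϖ ^ n • y ∈ D.V₂
  S_mem₁ : ∀ c : D.F₀, S₀ c ∈ D.C₁ ↔ c ∈ D.C₁
  S_mem₂ : ∀ c : D.F₀, S₀ c ∈ D.C₂ ↔ c ∈ D.C₂
  S_V₁ : ∀ y : D.F₀, S₀ y ∈ D.V₁ ↔ y ∈ D.V₁
  S_V₂ : ∀ y : D.F₀, S₀ y ∈ D.V₂ ↔ y ∈ D.V₂
  S_base : ∀ a : D.A₀, ∃ a' : D.A₀,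
    S₀ (algebraMap D.A₀ D.F₀ a) = algebraMap D.A₀ D.F₀ a' ∧ D.ϖ ∣ a' - a ^ Q
  ι_S : ∀ y : D.F₀, D.ι (S₀ y) = S (D.ι y)

/-- The local requirement at a closed point `x` of a chart: the Cartier condition for `w` and the
type of the point. -/
def FrobPoint {A₀ F₀ : Type} [CommRing A₀] [Field F₀] [Algebra A₀ F₀] (C : Subalgebra A₀ F₀)
    (V₁ V₂ : ValuationSubring F₀) (S₀ : F₀ ≃+* F₀) (Q m : ℕ) (w : F₀) (x : Ideal ↥C) : Prop :=
  (∃ g : F₀, g ≠ 0 ∧ ∃ a b : ↥C, a ∉ x ∧ b ∉ x ∧ w * (b : F₀) = (a : F₀) * g ^ m) ∧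
    PointFrob C V₁ V₂ S₀ Q m x

/-- The reductions (GA) of `w` modulo the two Gauss rings. -/
def FrobRed {M : ℕ} (D : VData M) (m : ℕ) (w : D.F₀) : Prop :=
  ∃ (c₁ c₂ : D.A₀ˣ) (h₁ h₂ : D.F₀), D.V₁.valuation h₁ = 1 ∧ D.V₂.valuation h₁ = 1 ∧
    D.V₁.valuation h₂ = 1 ∧ D.V₂.valuation h₂ = 1 ∧
    w - algebraMap D.A₀ D.F₀ c₁ * h₁ ^ m ∈ D.V₁.nonunits ∧
    w - algebraMap D.A₀ D.F₀ c₂ * h₂ ^ m ∈ D.V₂.nonunits

/-- **The model leaf of S35-GEO.** -/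
def FrobModelStatement : Prop :=
  ∀ (N q p r : ℕ) [NeZero N] [NeZero q], LevelHyp2 (N * q) q p r →
    ∀ (n : ℕ) (A : ValuationSubring Qb), A.LiesOverPrime q →
    ∀ σ : Qb ≃ₐ[ℚ] Qb, A.IsFrobeniusAt σ q →
    ∀ u : FF (N * q), u ≠ 0 → (∀ v : Place Qb (FF (N * q)), ((p ^ n : ℕ) : ℤ) ∣ v.ord u) →
      (∃ (c : Qb) (h : FF N),
        normAlong (heckeAlphaBar Qb N q) u = algebraMap Qb (FF N) c * h ^ (p ^ n)) →
      (∃ (c : Qb) (h : FF N),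
        normAlong (heckeBetaBar Qb N q) u = algebraMap Qb (FF N) c * h ^ (p ^ n)) →
      ∃ (D : VData (N * q)) (τ : FF (N * q) ≃+* FF (N * q)) (S₀ : D.F₀ ≃+* D.F₀),
        D.Good (p ^ n) τ ∧
        FrobData D (q ^ 2) ((gal (N * q) σ).trans (gal (N * q) σ)) S₀ ∧
        ∃ u₀ : D.F₀, D.ι u₀ = u ∧ FrobRed D (p ^ n) (S₀ u₀ / u₀) ∧
          (∀ x : Ideal ↥D.C₁, x.IsMaximal → algebraMap D.A₀ ↥D.C₁ D.ϖ ∈ x →
            FrobPoint D.C₁ D.V₁ D.V₂ S₀ (q ^ 2) (p ^ n) (S₀ u₀ / u₀) x) ∧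
          (∀ x : Ideal ↥D.C₂, x.IsMaximal → algebraMap D.A₀ ↥D.C₂ D.ϖ ∈ x →
            FrobPoint D.C₂ D.V₁ D.V₂ S₀ (q ^ 2) (p ^ n) (S₀ u₀ / u₀) x)

/-- **The root of S35-GEO**: the model leaf gives the function-level target. -/
theorem kummerNewPow_of_frobModel (hmodel : FrobModelStatement) (N q p r : ℕ) [NeZero N]
    [NeZero q] (hL : LevelHyp2 (N * q) q p r) : KummerNewPow N q p := by
  intro n A hA σ hσ u hu hdiv hα hβ
  obtain ⟨D, τ, S₀, hD, hF, u₀, hu₀, ⟨c₁, c₂, h₁, h₂, hh₁₁, hh₁₂, hh₂₁, hh₂₂, hw₁, hw₂⟩, hp₁, hp₂⟩ :=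
    hmodel N q p r hL n A hA σ hσ u hu hdiv hα hβ
  haveI := hD.icl₁
  haveI := hD.icl₂
  have hq0 : q ^ 2 ≠ 0 := pow_ne_zero 2 (NeZero.ne q)
  obtain ⟨a, h, hh0, hS⟩ := frob_cech D.ϖ hD.irr (p ^ n) hD.unit_m D.j hD.j_ne D.C₁ D.C₂
    hD.j_mem₁ hD.j_mem₂ hD.fin₁ hD.frac₁ hD.glue D.V₁ D.V₂ hD.unif₁ hD.unif₂ hD.le₁₁ hD.le₁₂
    hD.le₂₁ hD.le₂₂ hD.j_inv₁ hD.j_inv₂ hD.sat₁ hD.sat₂ hD.const₁ hD.const₂ hD.inter
    hF.ne hF.arch₁ hF.arch₂ (q ^ 2) hq0 S₀ hF.S_mem₁ hF.S_mem₂ hF.S_V₁ hF.S_V₂ hF.S_base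
    (S₀ u₀ / u₀) c₁ c₂ h₁ h₂ hh₁₁ hh₁₂ hh₂₁ hh₂₂ hw₁ hw₂
    (fun x hx hπ => (hp₁ x hx hπ).1) (fun x hx hπ => (hp₂ x hx hπ).1)
    (fun x hx hπ => (hp₁ x hx hπ).2) (fun x hx hπ => (hp₂ x hx hπ).2)
  obtain ⟨c, hc⟩ := hD.ι_base a
  refine ⟨c, D.ι h, (map_ne_zero D.ι).2 hh0, ?_⟩
  have h1 := congrArg D.ι hS
  rw [hF.ι_S, map_mul, map_mul, map_pow, map_pow, map_div₀, hF.ι_S, hu₀, hc] at h1
  exact h1

end Fermat.Agent.S35.H27
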