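/-
S35, geometry side (helper27): THE LEAVES of the model leaf `FrobModelStatement`, as Props about
the ONE concrete two-valuation model `S34.H30.stdV` of Program B' (S34).

Notation (as in `S34/H30/Leaves.lean`): level `M * q` (`q ∤ M`), `A ∣ q` a valuation ring of `ℚ̄`,
the two Gauss rings `O₁`, `O₂ = w⁻¹ O₁` of `F_{Mq}`, a base function `x₀` of level `M`, a normal
number field `K₀`, a uniformiser `ϖ` of `A₀ = A ∩ K₀`, `D = stdV M q A hAtop O₁ w K₀ ϖ j σ'`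
(`F₀ = ratForm (M * q) K₀`, `j = α(x₀)`, `C₁ = chart A₀ j`, `C₂ = chart A₀ j⁻¹`, `V_k = O_k ∩ F₀`).
For a Frobenius `σ` at `q`:   `S₀ = frobSq (M * q) K₀ σ = (tauForm σ)²`,   `Q = q ^ 2`.

Leaves (all with the binder block of `H30.OneCompLeaf`, plus `σ`, `A.IsFrobeniusAt σ q`):
* `FrobSLeaf`     (L1) : `S₀` preserves the charts and the two Gauss rings, is the `q²`-power map
                         on the residue field of the base, and induces `σ²` on `F_{Mq}`;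
* `FrobNeLeaf`    (L2) : `V₁ ≠ V₂`, and `ϖ`-archimedean-ness of `V₁`, `V₂`;
* `ScaleLeaf`     (L2') : every nonzero function is a power of `ϖ` times a unit of `V_k`;
* `FrobRedLeaf`   (L3) : the reductions (GA) of `S₀ u₀ / u₀` modulo the two Gauss rings, for a
                         function `u₀` whose two norms to level `M` are constants times `m`-th
                         powers (over `K₀`);
* `HLocFrobStatement` (L4, abstract) : the Cartier condition for `S u / u` at an `S`-fixed closed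
                         point, from the local divisor datum `HLoc`;
* `OneCompFrobLeaf` (L6a) : a closed point of the special fibre of either chart which is not on
                         both components is a one-component point with normal branch;
* `CrossFrobLeaf₁`, `CrossFrobLeaf₂` (L6b) : a closed point on both components is a crossing
                         point in the sense of `Crossing` (finite chart, chart at infinity).

The root (`FrobRoot.lean`) proves `FrobModelStatement` from these and the leaves of Program B'.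
-/
import Fermat.Agent.S34.H30.Leaves
import Fermat.Agent.S35.H27.FrobModel

set_option autoImplicit false
set_option linter.style.haveILetI false
set_option linter.unusedSectionVars false

open AlgebraicCurve ModularCurve

noncomputable section

namespace Fermat.Agent.S35.H27

open Fermat.Agent.S34.H27 Fermat.Agent.S34.H30 Fermat.Agent.S34.H10 Fermat.Agent.S34.H7
  Fermat.Agent.S18 Fermat.Agent.S18.H74 Fermat.Agent.S18.H19 Fermat.Agent.S34.H19
  Fermat.Agent.S34.H61 Fermat.Agent.S34.H64 Fermat.Agent.S37.H36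

/-- The square of the Frobenius twist on the `K₀`-form of `F_N`. -/
def frobSq (N : ℕ) (K₀ : IntermediateField ℚ Kb) [Normal ℚ K₀] (σ : Kb ≃ₐ[ℚ] Kb) :
    ↥(ratForm N K₀) ≃+* ↥(ratForm N K₀) :=
  (tauForm N K₀ σ).trans (tauForm N K₀ σ)

theorem frobSq_apply (N : ℕ) (K₀ : IntermediateField ℚ Kb) [Normal ℚ K₀] (σ : Kb ≃ₐ[ℚ] Kb)
    (y : ↥(ratForm N K₀)) : frobSq N K₀ σ y = tauForm N K₀ σ (tauForm N K₀ σ y) := rfl

/-- The `S`-fields of `FrobData`. -/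
structure FrobS {M : ℕ} (D : VData M) (Q : ℕ) (S : FF M ≃+* FF M) (S₀ : D.F₀ ≃+* D.F₀) :
    Prop where
  S_mem₁ : ∀ c : D.F₀, S₀ c ∈ D.C₁ ↔ c ∈ D.C₁
  S_mem₂ : ∀ c : D.F₀, S₀ c ∈ D.C₂ ↔ c ∈ D.C₂
  S_V₁ : ∀ y : D.F₀, S₀ y ∈ D.V₁ ↔ y ∈ D.V₁
  S_V₂ : ∀ y : D.F₀, S₀ y ∈ D.V₂ ↔ y ∈ D.V₂
  S_base : ∀ a : D.A₀, ∃ a' : D.A₀,
    S₀ (algebraMap D.A₀ D.F₀ a) = algebraMap D.A₀ D.F₀ a' ∧ D.ϖ ∣ a' - a ^ Q
  ι_S : ∀ y : D.F₀, D.ι (S₀ y) = S (D.ι y)

/-- The two Gauss rings are distinct and `ϖ`-archimedean. -/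
structure FrobNe {M : ℕ} (D : VData M) : Prop where
  ne : D.V₁ ≠ D.V₂
  arch₁ : ∀ y : D.F₀, ∃ n : ℕ, D.ϖ ^ n • y ∈ D.V₁
  arch₂ : ∀ y : D.F₀, ∃ n : ℕ, D.ϖ ^ n • y ∈ D.V₂

/-- Every nonzero function is a power of `ϖ` times a unit of `V₁`, resp. of `V₂`. -/
structure Scale {M : ℕ} (D : VData M) : Prop where
  scale₁ : ∀ y : D.F₀, y ≠ 0 → ∃ n : ℤ, IsU D.V₁ (y / algebraMap D.A₀ D.F₀ D.ϖ ^ n)
  scale₂ : ∀ y : D.F₀, y ≠ 0 → ∃ n : ℤ, IsU D.V₂ (y / algebraMap D.A₀ D.F₀ D.ϖ ^ n)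

/-- One-component points of the model are one-component points with normal branch
(both charts). -/
def OneCompFrob {M : ℕ} (D : VData M) (m : ℕ) : Prop :=
  (∀ x : Ideal ↥D.C₁, x.IsMaximal → algebraMap D.A₀ ↥D.C₁ D.ϖ ∈ x → ¬ Both D.V₁ D.V₂ D.C₁ x →
      OneComp D.C₁ D.V₁ D.V₂ m x ∨ OneComp D.C₁ D.V₂ D.V₁ m x) ∧
  (∀ x : Ideal ↥D.C₂, x.IsMaximal → algebraMap D.A₀ ↥D.C₂ D.ϖ ∈ x → ¬ Both D.V₁ D.V₂ D.C₂ x →
      OneComp D.C₂ D.V₁ D.V₂ m x ∨ OneComp D.C₂ D.V₂ D.V₁ m x)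

/-- The closed points of the finite chart on both components are crossing points. -/
def CrossFrob₁ {M : ℕ} (D : VData M) (S₀ : D.F₀ ≃+* D.F₀) (Q m : ℕ) : Prop :=
  ∀ x : Ideal ↥D.C₁, x.IsMaximal → algebraMap D.A₀ ↥D.C₁ D.ϖ ∈ x → Both D.V₁ D.V₂ D.C₁ x →
    Crossing D.C₁ D.V₁ D.V₂ S₀ Q m x

/-- The closed points of the chart at infinity on both components are crossing points. -/
def CrossFrob₂ {M : ℕ} (D : VData M) (S₀ : D.F₀ ≃+* D.F₀) (Q m : ℕ) : Prop :=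
  ∀ x : Ideal ↥D.C₂, x.IsMaximal → algebraMap D.A₀ ↥D.C₂ D.ϖ ∈ x → Both D.V₁ D.V₂ D.C₂ x →
    Crossing D.C₂ D.V₁ D.V₂ S₀ Q m x

/-- **Leaf (L1)**: the Frobenius square on the concrete model. -/
def FrobSLeaf : Prop :=
  ∀ (M q : ℕ) [NeZero M] [Fact q.Prime] (hqM : ¬ q ∣ M) (A : ValuationSubring Kb)
    (hA : A.LiesOverPrime q) (hAtop : A ≠ ⊤) (O₁ : ValuationSubring (FN (M * q)))
    (w : FN (M * q) ≃+* FN (M * q)), TwoGauss M q hqM A hA O₁ w →
    ∀ (x₀ : FN M), IsBase M q hqM A hA x₀ →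
    ∀ (K₀ : IntermediateField ℚ Kb) [FiniteDimensional ℚ K₀] [Normal ℚ K₀]
      (ϖ : ↥(A.comap (algebraMap K₀ Kb))), Irreducible ϖ →
      ∀ (j : ↥(ratForm (M * q) K₀)), (j : FN (M * q)) = heckeAlphaBar Kb M q x₀ →
      ∀ (σ σ' : Kb ≃ₐ[ℚ] Kb), A.IsFrobeniusAt σ q →
        FrobS (stdV M q A hAtop O₁ w K₀ ϖ j σ') (q ^ 2)
          ((gal (M * q) σ).trans (gal (M * q) σ)) (frobSq (M * q) K₀ σ)

/-- **Leaf (L2)**: the two Gauss rings of the concrete model are distinct and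
`ϖ`-archimedean. -/
def FrobNeLeaf : Prop :=
  ∀ (M q : ℕ) [NeZero M] [Fact q.Prime] (hqM : ¬ q ∣ M) (A : ValuationSubring Kb)
    (hA : A.LiesOverPrime q) (hAtop : A ≠ ⊤) (O₁ : ValuationSubring (FN (M * q)))
    (w : FN (M * q) ≃+* FN (M * q)), TwoGauss M q hqM A hA O₁ w →
    ∀ (x₀ : FN M), IsBase M q hqM A hA x₀ →
    ∀ (K₀ : IntermediateField ℚ Kb) [FiniteDimensional ℚ K₀] [Normal ℚ K₀]
      (ϖ : ↥(A.comap (algebraMap K₀ Kb))), Irreducible ϖ →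
      ∀ (j : ↥(ratForm (M * q) K₀)), (j : FN (M * q)) = heckeAlphaBar Kb M q x₀ →
      ∀ σ' : Kb ≃ₐ[ℚ] Kb, FrobNe (stdV M q A hAtop O₁ w K₀ ϖ j σ')

/-- **Leaf (L2')**: the two Gauss rings of the concrete model are discrete with uniformiser
`ϖ`. -/
def ScaleLeaf : Prop :=
  ∀ (M q : ℕ) [NeZero M] [Fact q.Prime] (hqM : ¬ q ∣ M) (A : ValuationSubring Kb)
    (hA : A.LiesOverPrime q) (hAtop : A ≠ ⊤) (O₁ : ValuationSubring (FN (M * q)))
    (w : FN (M * q) ≃+* FN (M * q)), TwoGauss M q hqM A hA O₁ w →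
    ∀ (x₀ : FN M), IsBase M q hqM A hA x₀ →
    ∀ (K₀ : IntermediateField ℚ Kb) [FiniteDimensional ℚ K₀] [Normal ℚ K₀]
      (ϖ : ↥(A.comap (algebraMap K₀ Kb))), Irreducible ϖ →
      ∀ (j : ↥(ratForm (M * q) K₀)), (j : FN (M * q)) = heckeAlphaBar Kb M q x₀ →
      ∀ σ' : Kb ≃ₐ[ℚ] Kb, Scale (stdV M q A hAtop O₁ w K₀ ϖ j σ')

/-- **Leaf (L3), the reductions (GA)**: if the two norms to level `M` of `u₀ ≠ 0` are constants
(of `K₀`) times `m`-th powers (of functions of level `M` over `K₀`), then `S₀ u₀ / u₀` is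
congruent modulo each Gauss ring to a unit constant times the `m`-th power of a function which
is a unit of both Gauss rings. -/
def FrobRedLeaf : Prop :=
  ∀ (M q : ℕ) [NeZero M] [Fact q.Prime] (hqM : ¬ q ∣ M) (A : ValuationSubring Kb)
    (hA : A.LiesOverPrime q) (hAtop : A ≠ ⊤) (O₁ : ValuationSubring (FN (M * q)))
    (w : FN (M * q) ≃+* FN (M * q)), TwoGauss M q hqM A hA O₁ w →
    ∀ (x₀ : FN M), IsBase M q hqM A hA x₀ →
    ∀ (K₀ : IntermediateField ℚ Kb) [FiniteDimensional ℚ K₀] [Normal ℚ K₀]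
      (ϖ : ↥(A.comap (algebraMap K₀ Kb))), Irreducible ϖ →
      ∀ (j : ↥(ratForm (M * q) K₀)), (j : FN (M * q)) = heckeAlphaBar Kb M q x₀ →
      ∀ (σ σ' : Kb ≃ₐ[ℚ] Kb), A.IsFrobeniusAt σ q →
      ∀ (m : ℕ) (u₀ : ↥(ratForm (M * q) K₀)), u₀ ≠ 0 →
        (∃ (c : K₀) (h : ↥(ratForm M K₀)), normAlong (heckeAlphaBar Kb M q) (u₀ : FN (M * q))
          = algebraMap Kb (FN M) (c : Kb) * (h : FN M) ^ m) →
        (∃ (c : K₀) (h : ↥(ratForm M K₀)), normAlong (heckeBetaBar Kb M q) (u₀ : FN (M * q))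
          = algebraMap Kb (FN M) (c : Kb) * (h : FN M) ^ m) →
        FrobRed (stdV M q A hAtop O₁ w K₀ ϖ j σ') m (frobSq (M * q) K₀ σ u₀ / u₀)

/-- **Leaf (L4), abstract**: on a normal noetherian chart `C`, `ϖ`-saturated in the semi-local
ring `O` of the special fibre, with an automorphism `S` of the function field preserving `C` and
the valuations of `O`: at a closed point `x` with `S x = x`, if `u` has the local divisor datum
`HLoc` at `x`, then `S u / u` is a unit at `x` times an `m`-th power.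
(The statement and proof of `S34.H59.localAbsStatement` with `τ ≡ 1 (mod ϖ)` replaced by
`S x ⊆ x`.) -/
def HLocFrobStatement : Prop :=
  ∀ (A₀ F₀ : Type) [CommRing A₀] [IsDomain A₀] [IsDiscreteValuationRing A₀] [Field F₀]
    [Algebra A₀ F₀] [FaithfulSMul A₀ F₀] (ϖ : A₀), Irreducible ϖ → ∀ (m : ℕ)
    (C O : Subalgebra A₀ F₀) [IsIntegrallyClosed ↥C] [IsNoetherianRing ↥C],
    (∀ y : F₀, ∃ a ∈ C, ∃ b ∈ C, b ≠ 0 ∧ y = a / b) → C ≤ O →
    (∀ y ∈ O, ϖ • y ∈ C → y ∈ C) →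
    ∀ S : F₀ ≃+* F₀, (∀ c : F₀, S c ∈ C ↔ c ∈ C) →
    (∃ e : A₀ˣ, S (algebraMap A₀ F₀ ϖ) = algebraMap A₀ F₀ (e * ϖ)) →
    (∀ y : F₀, y ≠ 0 → S y / y ∈ O ∧ y / S y ∈ O) →
    ∀ x : Ideal ↥C, x.IsMaximal → algebraMap A₀ ↥C ϖ ∈ x →
    (∀ c c' : ↥C, (c' : F₀) = S (c : F₀) → c ∉ x → c' ∉ x) →
    ∀ u : F₀, u ≠ 0 → HLoc ϖ m C x u →
      ∃ g : F₀, g ≠ 0 ∧ ∃ a b : ↥C, a ∉ x ∧ b ∉ x ∧ S u / u * (b : F₀) = (a : F₀) * g ^ m

/-- **Leaf (L6a), one-component points**: a closed point of the special fibre of either chart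
which is not on both components lies on one component only, with normal branch. -/
def OneCompFrobLeaf : Prop :=
  ∀ (M q : ℕ) [NeZero M] [Fact q.Prime] (hqM : ¬ q ∣ M) (A : ValuationSubring Kb)
    (hA : A.LiesOverPrime q) (hAtop : A ≠ ⊤) (O₁ : ValuationSubring (FN (M * q)))
    (w : FN (M * q) ≃+* FN (M * q)), TwoGauss M q hqM A hA O₁ w →
    ∀ (x₀ : FN M), IsBase M q hqM A hA x₀ →
    ∀ (K₀ : IntermediateField ℚ Kb) [FiniteDimensional ℚ K₀] [Normal ℚ K₀]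
      (ϖ : ↥(A.comap (algebraMap K₀ Kb))), Irreducible ϖ →
      ∀ (j : ↥(ratForm (M * q) K₀)), (j : FN (M * q)) = heckeAlphaBar Kb M q x₀ →
      ∀ (σ' : Kb ≃ₐ[ℚ] Kb) (m : ℕ), 0 < m →
        OneCompFrob (stdV M q A hAtop O₁ w K₀ ϖ j σ') m

/-- **Leaf (L6b), crossing points of the finite chart**: a closed point of the finite chart on
both components of the special fibre is fixed by `S₀`, `S₀` induces the `q²`-power map on its
residue field, both branches are normal, and the crossing is transversal. -/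
def CrossFrobLeaf₁ : Prop :=
  ∀ (M q : ℕ) [NeZero M] [Fact q.Prime] (hqM : ¬ q ∣ M) (A : ValuationSubring Kb)
    (hA : A.LiesOverPrime q) (hAtop : A ≠ ⊤) (O₁ : ValuationSubring (FN (M * q)))
    (w : FN (M * q) ≃+* FN (M * q)), TwoGauss M q hqM A hA O₁ w →
    ∀ (x₀ : FN M), IsBase M q hqM A hA x₀ →
    ∀ (K₀ : IntermediateField ℚ Kb) [FiniteDimensional ℚ K₀] [Normal ℚ K₀]
      (ϖ : ↥(A.comap (algebraMap K₀ Kb))), Irreducible ϖ →
      ∀ (j : ↥(ratForm (M * q) K₀)), (j : FN (M * q)) = heckeAlphaBar Kb M q x₀ →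
      ∀ (σ σ' : Kb ≃ₐ[ℚ] Kb), A.IsFrobeniusAt σ q → ∀ m : ℕ, 0 < m →
        CrossFrob₁ (stdV M q A hAtop O₁ w K₀ ϖ j σ') (frobSq (M * q) K₀ σ) (q ^ 2) m

/-- **Leaf (L6b'), crossing points of the chart at infinity** (they are not cusps; by transfer
from the finite chart). -/
def CrossFrobLeaf₂ : Prop :=
  ∀ (M q : ℕ) [NeZero M] [Fact q.Prime] (hqM : ¬ q ∣ M) (A : ValuationSubring Kb)
    (hA : A.LiesOverPrime q) (hAtop : A ≠ ⊤) (O₁ : ValuationSubring (FN (M * q)))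
    (w : FN (M * q) ≃+* FN (M * q)), TwoGauss M q hqM A hA O₁ w →
    ∀ (x₀ : FN M), IsBase M q hqM A hA x₀ →
    ∀ (K₀ : IntermediateField ℚ Kb) [FiniteDimensional ℚ K₀] [Normal ℚ K₀]
      (ϖ : ↥(A.comap (algebraMap K₀ Kb))), Irreducible ϖ →
      ∀ (j : ↥(ratForm (M * q) K₀)), (j : FN (M * q)) = heckeAlphaBar Kb M q x₀ →
      ∀ (σ σ' : Kb ≃ₐ[ℚ] Kb), A.IsFrobeniusAt σ q → ∀ m : ℕ, 0 < m →
        CrossFrob₂ (stdV M q A hAtop O₁ w K₀ ϖ j σ') (frobSq (M * q) K₀ σ) (q ^ 2) m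

end Fermat.Agent.S35.H27
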