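/-
S35, geometry side (helper27): THE ROOT of S35-GEO on the concrete model, RELATIVE FORM
(the form of `S34/H77/RootB.lean`, which is the final interface of Program B').

The leaves are relative to a predicate `B` on the base function `x₀` (produced by the base leaf
`H77.BaseLeafB B`; finally `B = H30.StdB`) and to `H77.LevelOK M q` (no elliptic element of
`Γ₀(M)`, `2 ∣ M` unless `q = 2`, `3 ∣ M` unless `q = 3`), both available at the root.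

* `FrobRedLeafB B`, `OneCompFrobLeafB B`, `CrossFrobLeafB₁ B`, `CrossFrobLeafB₂ B` : the S35
  leaves (L3), (L6a), (L6b) of `FrobLeaves.lean` with the two extra hypotheses; each leaf of
  `FrobLeaves.lean` implies its relative form (`frobRedLeafB_of`, …);
* `frobModelStatement_of_leavesB` : `FrobModelStatement` from the relative leaves of Program B'
  (`BaseLeafB`, `ChartLeafB`, `SemiLeafB`, `OneCompLeafB`, `CuspLeafB`, `CrossLeafB`) and the four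
  relative S35 leaves.  The Frobenius data (L1), (L2) is the landed `S35.H65.frobData_stdV_holds`
  (helper65, helper10); the Cartier condition at every closed point is the landed
  `S35.H7.frobPoint_of_points` (helper7).
-/
import Fermat.Agent.S34.H77.RootB
import Fermat.Agent.S34.H78.LeafDescent
import Fermat.Agent.S35.H7.FrobPointAsm
import Fermat.Agent.S35.H65.FrobDataStd
import Fermat.Agent.S35.H27.FrobLeaves

set_option autoImplicit false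
set_option linter.style.haveILetI false
set_option linter.unusedSectionVars false

open AlgebraicCurve ModularCurve

noncomputable section

namespace Fermat.Agent.S35.H27

open Fermat.Agent.S34.H27 Fermat.Agent.S34.H30 Fermat.Agent.S34.H10 Fermat.Agent.S34.H7
  Fermat.Agent.S18 Fermat.Agent.S18.H74 Fermat.Agent.S18.H19 Fermat.Agent.S34.H19
  Fermat.Agent.S34.H61 Fermat.Agent.S34.H64 Fermat.Agent.S37.H36 Fermat.Agent.S34.H77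

variable (B : (M q : ℕ) → FN M → Prop)

/-- **Leaf (L3), relative form.** -/
def FrobRedLeafB : Prop :=
  ∀ (M q : ℕ) [NeZero M] [Fact q.Prime] (hqM : ¬ q ∣ M), LevelOK M q →
    ∀ (A : ValuationSubring Kb)
    (hA : A.LiesOverPrime q) (hAtop : A ≠ ⊤) (O₁ : ValuationSubring (FN (M * q)))
    (w : FN (M * q) ≃+* FN (M * q)), TwoGauss M q hqM A hA O₁ w →
    ∀ (x₀ : FN M), IsBase M q hqM A hA x₀ → B M q x₀ →
    ∀ (K₀ : IntermediateField ℚ Kb) [FiniteDimensional ℚ K₀] [Normal ℚ K₀]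
      (ϖ : ↥(A.comap (algebraMap K₀ Kb))), Irreducible ϖ →
      ∀ (j : ↥(ratForm (M * q) K₀)), (j : FN (M * q)) = heckeAlphaBar Kb M q x₀ →
      ∀ (σ σ' : Kb ≃ₐ[ℚ] Kb), A.IsFrobeniusAt σ q →
      ∀ (m : ℕ) (u₀ : ↥(ratForm (M * q) K₀)), u₀ ≠ 0 →
        (∃ (c : K₀) (h : ↥(ratForm M K₀)), normAlong (heckeAlphaBar Kb M q) (u₀ : FN (M * q))
          = algebraMap Kb (FN M) (c : Kb) * (h : FN M) ^ m) →
        (∃ (c : K₀) (h : ↥(ratForm M K₀)), normAlong (heckeBetaBar Kb M q) (u₀ : FN (M * q))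
          = algebraMap Kb (FN M) (c : Kb) * (h : FN M) ^ m) →
        FrobRed (stdV M q A hAtop O₁ w K₀ ϖ j σ') m (frobSq (M * q) K₀ σ u₀ / u₀)

/-- **Leaf (L6a), relative form.** -/
def OneCompFrobLeafB : Prop :=
  ∀ (M q : ℕ) [NeZero M] [Fact q.Prime] (hqM : ¬ q ∣ M), LevelOK M q →
    ∀ (A : ValuationSubring Kb)
    (hA : A.LiesOverPrime q) (hAtop : A ≠ ⊤) (O₁ : ValuationSubring (FN (M * q)))
    (w : FN (M * q) ≃+* FN (M * q)), TwoGauss M q hqM A hA O₁ w →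
    ∀ (x₀ : FN M), IsBase M q hqM A hA x₀ → B M q x₀ →
    ∀ (K₀ : IntermediateField ℚ Kb) [FiniteDimensional ℚ K₀] [Normal ℚ K₀]
      (ϖ : ↥(A.comap (algebraMap K₀ Kb))), Irreducible ϖ →
      ∀ (j : ↥(ratForm (M * q) K₀)), (j : FN (M * q)) = heckeAlphaBar Kb M q x₀ →
      ∀ (σ' : Kb ≃ₐ[ℚ] Kb) (m : ℕ), 0 < m →
        OneCompFrob (stdV M q A hAtop O₁ w K₀ ϖ j σ') m

/-- **Leaf (L6b), finite chart, relative form.** -/
def CrossFrobLeafB₁ : Prop :=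
  ∀ (M q : ℕ) [NeZero M] [Fact q.Prime] (hqM : ¬ q ∣ M), LevelOK M q →
    ∀ (A : ValuationSubring Kb)
    (hA : A.LiesOverPrime q) (hAtop : A ≠ ⊤) (O₁ : ValuationSubring (FN (M * q)))
    (w : FN (M * q) ≃+* FN (M * q)), TwoGauss M q hqM A hA O₁ w →
    ∀ (x₀ : FN M), IsBase M q hqM A hA x₀ → B M q x₀ →
    ∀ (K₀ : IntermediateField ℚ Kb) [FiniteDimensional ℚ K₀] [Normal ℚ K₀]
      (ϖ : ↥(A.comap (algebraMap K₀ Kb))), Irreducible ϖ →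
      ∀ (j : ↥(ratForm (M * q) K₀)), (j : FN (M * q)) = heckeAlphaBar Kb M q x₀ →
      ∀ (σ σ' : Kb ≃ₐ[ℚ] Kb), A.IsFrobeniusAt σ q → ∀ m : ℕ, 0 < m →
        CrossFrob₁ (stdV M q A hAtop O₁ w K₀ ϖ j σ') (frobSq (M * q) K₀ σ) (q ^ 2) m

/-- **Leaf (L6b), chart at infinity, relative form.** -/
def CrossFrobLeafB₂ : Prop :=
  ∀ (M q : ℕ) [NeZero M] [Fact q.Prime] (hqM : ¬ q ∣ M), LevelOK M q →
    ∀ (A : ValuationSubring Kb)
    (hA : A.LiesOverPrime q) (hAtop : A ≠ ⊤) (O₁ : ValuationSubring (FN (M * q)))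
    (w : FN (M * q) ≃+* FN (M * q)), TwoGauss M q hqM A hA O₁ w →
    ∀ (x₀ : FN M), IsBase M q hqM A hA x₀ → B M q x₀ →
    ∀ (K₀ : IntermediateField ℚ Kb) [FiniteDimensional ℚ K₀] [Normal ℚ K₀]
      (ϖ : ↥(A.comap (algebraMap K₀ Kb))), Irreducible ϖ →
      ∀ (j : ↥(ratForm (M * q) K₀)), (j : FN (M * q)) = heckeAlphaBar Kb M q x₀ →
      ∀ (σ σ' : Kb ≃ₐ[ℚ] Kb), A.IsFrobeniusAt σ q → ∀ m : ℕ, 0 < m →
        CrossFrob₂ (stdV M q A hAtop O₁ w K₀ ϖ j σ') (frobSq (M * q) K₀ σ) (q ^ 2) m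

/-! ### The leaves of `FrobLeaves.lean` imply their relative forms -/

theorem frobRedLeafB_of (h : FrobRedLeaf) : FrobRedLeafB B :=
  fun M q _ _ hqM _ A hA hAtop O₁ w hTG x₀ hx₀ _ K₀ _ _ ϖ hϖ j hj σ σ' hσ m u₀ hu₀ hα hβ =>
    h M q hqM A hA hAtop O₁ w hTG x₀ hx₀ K₀ ϖ hϖ j hj σ σ' hσ m u₀ hu₀ hα hβ

theorem oneCompFrobLeafB_of (h : OneCompFrobLeaf) : OneCompFrobLeafB B :=
  fun M q _ _ hqM _ A hA hAtop O₁ w hTG x₀ hx₀ _ K₀ _ _ ϖ hϖ j hj σ' m hm =>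
    h M q hqM A hA hAtop O₁ w hTG x₀ hx₀ K₀ ϖ hϖ j hj σ' m hm

theorem crossFrobLeafB₁_of (h : CrossFrobLeaf₁) : CrossFrobLeafB₁ B :=
  fun M q _ _ hqM _ A hA hAtop O₁ w hTG x₀ hx₀ _ K₀ _ _ ϖ hϖ j hj σ σ' hσ m hm =>
    h M q hqM A hA hAtop O₁ w hTG x₀ hx₀ K₀ ϖ hϖ j hj σ σ' hσ m hm

theorem crossFrobLeafB₂_of (h : CrossFrobLeaf₂) : CrossFrobLeafB₂ B :=
  fun M q _ _ hqM _ A hA hAtop O₁ w hTG x₀ hx₀ _ K₀ _ _ ϖ hϖ j hj σ σ' hσ m hm =>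
    h M q hqM A hA hAtop O₁ w hTG x₀ hx₀ K₀ ϖ hϖ j hj σ σ' hσ m hm

/-! ### The closed points, for an abstract model -/

/-- The type of every closed point of the special fibre of both charts, from the point leaves
of S35. -/
theorem pointFrob_of_leaves {M : ℕ} (D : VData M) (S₀ : D.F₀ ≃+* D.F₀) (Q m : ℕ)
    (hOneF : OneCompFrob D m) (hCr₁ : CrossFrob₁ D S₀ Q m) (hCr₂ : CrossFrob₂ D S₀ Q m) :
    (∀ x : Ideal ↥D.C₁, x.IsMaximal → algebraMap D.A₀ ↥D.C₁ D.ϖ ∈ x →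
      PointFrob D.C₁ D.V₁ D.V₂ S₀ Q m x) ∧
    (∀ x : Ideal ↥D.C₂, x.IsMaximal → algebraMap D.A₀ ↥D.C₂ D.ϖ ∈ x →
      PointFrob D.C₂ D.V₁ D.V₂ S₀ Q m x) := by
  constructor
  · intro x hx hϖx
    by_cases hB : Both D.V₁ D.V₂ D.C₁ x
    · exact Or.inr (Or.inr (hCr₁ x hx hϖx hB))
    · rcases hOneF.1 x hx hϖx hB with h | h
      · exact Or.inl h
      · exact Or.inr (Or.inl h)
  · intro x hx hϖx
    by_cases hB : Both D.V₁ D.V₂ D.C₂ x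
    · exact Or.inr (Or.inr (hCr₂ x hx hϖx hB))
    · rcases hOneF.2 x hx hϖx hB with h | h
      · exact Or.inl h
      · exact Or.inr (Or.inl h)

/-- `FrobPoint` at every closed point of the special fibre of both charts, for a good model
with Frobenius data, from the point leaves of Program B' and of S35 (`S35.H7.frobPoint_of_points`
with the point types supplied by `pointFrob_of_leaves`). -/
theorem frobPoints_of_leaves {M : ℕ} (D : VData M) (m : ℕ) (τ : FF M ≃+* FF M)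
    (hD : D.Good m τ) (Q : ℕ) (hQ : Q ≠ 0) (S : FF M ≃+* FF M) (S₀ : D.F₀ ≃+* D.F₀)
    (hF : FrobData D Q S S₀) (u₀ : D.F₀) (hu₀0 : u₀ ≠ 0) (hDivK : D.DivK m u₀)
    (hOne : D.OneComp) (hCusp : D.Cusp) (hCross : D.Cross m u₀)
    (hOneF : OneCompFrob D m) (hCr₁ : CrossFrob₁ D S₀ Q m) (hCr₂ : CrossFrob₂ D S₀ Q m) :
    (∀ x : Ideal ↥D.C₁, x.IsMaximal → algebraMap D.A₀ ↥D.C₁ D.ϖ ∈ x →
      FrobPoint D.C₁ D.V₁ D.V₂ S₀ Q m (S₀ u₀ / u₀) x) ∧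
    (∀ x : Ideal ↥D.C₂, x.IsMaximal → algebraMap D.A₀ ↥D.C₂ D.ϖ ∈ x →
      FrobPoint D.C₂ D.V₁ D.V₂ S₀ Q m (S₀ u₀ / u₀) x) := by
  obtain ⟨hpf₁, hpf₂⟩ := pointFrob_of_leaves D S₀ Q m hOneF hCr₁ hCr₂
  exact Fermat.Agent.S35.H7.frobPoint_of_points D m τ hD Q hQ S S₀ hF u₀ hu₀0
    (D.div_of_divK hD.irr m u₀ hDivK) hOne hCusp hCross hpf₁ hpf₂

/-! ### The root -/

/-- **The root of S35-GEO on the concrete model, relative form**: the model leaf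
`FrobModelStatement` from the leaves of Program B' in the relative form of `S34/H77/RootB.lean`
and the four relative S35 leaves. -/
theorem frobModelStatement_of_leavesB (hbase : BaseLeafB B) (hchart : ChartLeafB B)
    (hsemi : SemiLeafB B) (hone : OneCompLeafB B) (hcusp : CuspLeafB B) (hcross : CrossLeafB B)
    (hred : FrobRedLeafB B) (honeF : OneCompFrobLeafB B) (hcr₁ : CrossFrobLeafB₁ B)
    (hcr₂ : CrossFrobLeafB₂ B) : FrobModelStatement := by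
  intro N q p r _ _ hL n A hA σ hσ u hu hdiv hα hβ
  obtain ⟨⟨hM, hq, hp, hqp, hqM, hq2, hr, hr12, hrM, hr2, hrq, hrp, hbig⟩, h2, h3⟩ := hL
  haveI : Fact q.Prime := ⟨hq⟩
  have hqN : ¬ q ∣ N := by
    rintro ⟨c, rfl⟩
    exact hq2 ⟨c, by ring⟩
  have h2' : q ≠ 2 → 2 ∣ N := fun hq2' => by
    rcases (Nat.Prime.dvd_mul Nat.prime_two).1 (h2 hq2') with h | h
    · exact h
    · exact absurd ((Nat.prime_dvd_prime_iff_eq Nat.prime_two hq).1 h).symm hq2'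
  have h3' : q ≠ 3 → 3 ∣ N := fun hq3' => by
    rcases (Nat.Prime.dvd_mul Nat.prime_three).1 (h3 hq3') with h | h
    · exact h
    · exact absurd ((Nat.prime_dvd_prime_iff_eq Nat.prime_three hq).1 h).symm hq3'
  have hrN : r ∣ N := by
    rcases (Nat.Prime.dvd_mul hr).1 hrM with h | h
    · exact h
    · exact absurd ((Nat.prime_dvd_prime_iff_eq hr hq).1 h) hrq
  have hlev : LevelOK N q :=
    ⟨Fermat.Agent.S34.H92.noElliptic_of_prime N r hr hr12 hrN, h2', h3'⟩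
  have hqpn : ¬ q ∣ p ^ n := fun h =>
    hqp ((Nat.prime_dvd_prime_iff_eq hq hp).1 (hq.dvd_of_dvd_pow h))
  have hpn0' : 0 < p ^ n := pow_pos hp.pos n
  have hq20 : q ^ 2 ≠ 0 := pow_ne_zero 2 hq.ne_zero
  obtain ⟨hAtop, hpn0, hpnA⟩ := Fermat.Agent.S18.H60.unit_facts_gen A hA (p ^ n) hqpn
  obtain ⟨O₁, w, hTG⟩ := twoGaussStatement N q hqN A hA
  obtain ⟨x₀, hx₀, hB⟩ := hbase N q hqN hlev A hA
  -- the descent
  classical
  obtain ⟨cα, hα', hNα⟩ := hα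
  obtain ⟨cβ, hβ', hNβ⟩ := hβ
  haveI : NeZero (N * q) := ⟨Nat.mul_ne_zero (NeZero.ne N) hq.ne_zero⟩
  obtain ⟨Z₁, hZ₁⟩ := Fermat.Agent.S34.H78.rat_ratForm (N * q) u hu
  obtain ⟨Z₂, hZ₂⟩ := exists_finset_forall_mem_ratForm N {hα', hβ'}
  obtain ⟨K₀, hfin, hnorm, hK₀⟩ := exists_normal_numberField (Z₁ ∪ Z₂ ∪ {cα, cβ})
  haveI := hfin
  haveI := hnorm
  obtain ⟨u₀, hu₀, hrat⟩ := hZ₁ K₀ (fun z hz => hK₀ z (by simp [hz]))
  have hhα : hα' ∈ ratForm N K₀ := hZ₂ K₀ (fun z hz => hK₀ z (by simp [hz])) hα' (by simp)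
  have hhβ : hβ' ∈ ratForm N K₀ := hZ₂ K₀ (fun z hz => hK₀ z (by simp [hz])) hβ' (by simp)
  have hcα : cα ∈ K₀ := hK₀ cα (by simp)
  have hcβ : cβ ∈ K₀ := hK₀ cβ (by simp)
  haveI := Fermat.Agent.S34.H78.isDVR_comap hAtop K₀
  obtain ⟨ϖ, hϖ⟩ := IsDiscreteValuationRing.exists_irreducible ↥(A.comap (algebraMap K₀ Kb))
  obtain ⟨g, hg⟩ := hx₀.1
  have hjmem : heckeAlphaBar Kb N q x₀ ∈ ratForm (N * q) K₀ :=
    heckeAlphaBar_mem_ratForm N q K₀ (by rw [← hg]; exact ratEmb_mem_ratForm N K₀ g)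
  have hjrat : heckeAlphaBar Kb N q x₀ ∈ Set.range (ratEmb (N * q)) :=
    ⟨_, by rw [← hg]; exact (heckeAlphaBar_ratEmb N q g).symm⟩
  have hunit : IsUnit (((p ^ n : ℕ) : ℕ) : ↥(A.comap (algebraMap K₀ Kb))) := by
    have hmem : (((p ^ n : ℕ) : K₀))⁻¹ ∈ A.comap (algebraMap K₀ Kb) := by
      show algebraMap K₀ Kb (((p ^ n : ℕ) : K₀))⁻¹ ∈ A
      rw [map_inv₀, map_natCast]
      exact hpnA
    refine IsUnit.of_mul_eq_one (⟨_, hmem⟩ : ↥(A.comap (algebraMap K₀ Kb))) ?_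
    apply Subtype.ext
    show ((p ^ n : ℕ) : K₀) * (((p ^ n : ℕ) : K₀))⁻¹ = 1
    exact mul_inv_cancel₀ (Nat.cast_ne_zero.mpr hpn0)
  have hσ1 : (1 : Kb ≃ₐ[ℚ] Kb) ∈ A.inertiaSubgroupIn ℚ := one_mem _
  have hGood := stdV_good N q hqN A hA hAtop O₁ w hTG K₀ ϖ hϖ ⟨_, hjmem⟩ hjrat
    (hchart N q hqN hlev A hA x₀ hx₀ hB K₀ ⟨_, hjmem⟩ rfl) 1 hσ1
    (hsemi N q hqN hlev A hA hAtop O₁ w hTG x₀ hx₀ hB K₀ ϖ hϖ ⟨_, hjmem⟩ rfl 1) (p ^ n) hunit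
  have hu₀0 : u₀ ≠ 0 := by
    rintro rfl
    exact hu hu₀.symm
  have hFD : FrobData (stdV N q A hAtop O₁ w K₀ ϖ ⟨_, hjmem⟩ 1) (q ^ 2)
      ((gal (N * q) σ).trans (gal (N * q) σ)) (frobSq (N * q) K₀ σ) :=
    Fermat.Agent.S35.H65.frobData_stdV_holds hqN A hA hAtop O₁ w hTG K₀ ϖ hϖ ⟨_, hjmem⟩ hjrat
      1 σ hσ
  have hDivK : (stdV N q A hAtop O₁ w K₀ ϖ ⟨_, hjmem⟩ 1).DivK (p ^ n) u₀ := by
    intro V hinv _
    have hK : ∀ c : K₀, algebraMap K₀ ↥(ratForm (N * q) K₀) c ∈ V :=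
      Fermat.Agent.S18.H61.algebraMap_mem_of_forall_inv_mem (A.comap (algebraMap K₀ Kb)) V hinv
    exact Fermat.Agent.S34.H78.div_modular (N * q) K₀ (p ^ n) u₀
      (fun P => by rw [hu₀]; exact hdiv P) V hK
  have hRatK : (stdV N q A hAtop O₁ w K₀ ϖ ⟨_, hjmem⟩ 1).RatK u₀ := by
    intro V hinv _ hnu y hy
    exact hrat A V hinv hnu y hy
  have hRed := hred N q hqN hlev A hA hAtop O₁ w hTG x₀ hx₀ hB K₀ ϖ hϖ ⟨_, hjmem⟩ rfl σ 1 hσ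
    (p ^ n)
    u₀ hu₀0 ⟨⟨cα, hcα⟩, ⟨hα', hhα⟩, by rw [hu₀]; exact hNα⟩
    ⟨⟨cβ, hcβ⟩, ⟨hβ', hhβ⟩, by rw [hu₀]; exact hNβ⟩
  have hOneF := honeF N q hqN hlev A hA hAtop O₁ w hTG x₀ hx₀ hB K₀ ϖ hϖ ⟨_, hjmem⟩ rfl 1
    (p ^ n) hpn0'
  have hCr₁ := hcr₁ N q hqN hlev A hA hAtop O₁ w hTG x₀ hx₀ hB K₀ ϖ hϖ ⟨_, hjmem⟩ rfl σ 1 hσ
    (p ^ n) hpn0'
  have hCr₂ := hcr₂ N q hqN hlev A hA hAtop O₁ w hTG x₀ hx₀ hB K₀ ϖ hϖ ⟨_, hjmem⟩ rfl σ 1 hσ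
    (p ^ n) hpn0'
  have hPts := frobPoints_of_leaves (stdV N q A hAtop O₁ w K₀ ϖ ⟨_, hjmem⟩ 1) (p ^ n)
    (gal (N * q) 1) hGood (q ^ 2) hq20 ((gal (N * q) σ).trans (gal (N * q) σ))
    (frobSq (N * q) K₀ σ) hFD u₀ hu₀0 hDivK
    (hone N q hqN hlev A hA hAtop O₁ w hTG x₀ hx₀ hB K₀ ϖ hϖ ⟨_, hjmem⟩ rfl 1)
    (hcusp N q hqN hlev A hA hAtop O₁ w hTG x₀ hx₀ hB K₀ ϖ hϖ ⟨_, hjmem⟩ rfl 1)
    (hcross N q hqN hlev A hA hAtop O₁ w hTG x₀ hx₀ hB K₀ ϖ hϖ ⟨_, hjmem⟩ rfl 1 (p ^ n) u₀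
      hu₀0 hDivK hRatK) hOneF hCr₁ hCr₂
  exact ⟨stdV N q A hAtop O₁ w K₀ ϖ ⟨_, hjmem⟩ 1, gal (N * q) 1, frobSq (N * q) K₀ σ, hGood,
    hFD, u₀, hu₀, hRed, hPts.1, hPts.2⟩

end Fermat.Agent.S35.H27
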