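/-
S35, geometry side (helper27): the crossing points of the chart at infinity, by transfer.

* `crossFrob₂_of_glue` : for a two-chart model, the closed points of the chart at infinity on
  both components are crossing points (`CrossFrob₂`), from the point types on the finite chart
  (`OneCompFrob`, first half, and `CrossFrob₁`), the cusp leaf `D.Cusp` of Program B' and the
  transfer `S35.H57.pointFrob_of_glue` (helper57);
* `crossFrobLeafB₂_of_glue` : the leaf `CrossFrobLeafB₂ B` from `CrossFrobLeafB₁ B`,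
  `OneCompFrobLeafB B` and the relative leaves `ChartLeafB B`, `SemiLeafB B`, `CuspLeafB B` of
  Program B';
* `frobModelStatement_of_leavesB'`, `frobModelStatement_of_pointLeaves'` : the roots of
  `FrobRootB.lean`, `FrobStd.lean` without the hypothesis `CrossFrobLeafB₂`.
-/
import Fermat.Agent.S34.H30.Final
import Fermat.Agent.S35.H57.PtTransfer
import Fermat.Agent.S35.H27.FrobRootB

set_option autoImplicit false
set_option linter.style.haveILetI false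
set_option linter.unusedSectionVars false

open AlgebraicCurve ModularCurve

noncomputable section

namespace Fermat.Agent.S35.H27

open Fermat.Agent.S34.H27 Fermat.Agent.S34.H30 Fermat.Agent.S34.H10 Fermat.Agent.S34.H7
  Fermat.Agent.S18 Fermat.Agent.S18.H74 Fermat.Agent.S18.H19 Fermat.Agent.S34.H19
  Fermat.Agent.S34.H61 Fermat.Agent.S34.H64 Fermat.Agent.S37.H36 Fermat.Agent.S34.H77

/-- The closed points of the chart at infinity on both components are crossing points, by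
transfer from the finite chart (they are not on the divisor `j = ∞`). -/
theorem crossFrob₂_of_glue {M : ℕ} (D : VData M) (hirr : Irreducible D.ϖ) (hj0 : D.j ≠ 0)
    (hj₁ : D.j ∈ D.C₁) (hj₂ : D.j⁻¹ ∈ D.C₂)
    (hint₂ : ∀ c ∈ D.C₂, IsIntegral (Algebra.adjoin D.A₀ ({D.j⁻¹} : Set D.F₀)) c)
    (hglue : ∀ y : D.F₀, (∃ n : ℕ, D.j ^ n * y ∈ D.C₁) ↔ (∃ n : ℕ, D.j⁻¹ ^ n * y ∈ D.C₂))
    (h₁₁ : ∀ c ∈ D.C₁, c ∈ D.V₁) (h₁₂ : ∀ c ∈ D.C₁, c ∈ D.V₂)
    (h₂₁ : ∀ c ∈ D.C₂, c ∈ D.V₁) (h₂₂ : ∀ c ∈ D.C₂, c ∈ D.V₂)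
    (S₀ : D.F₀ ≃+* D.F₀) (hSC₂ : ∀ c : D.F₀, S₀ c ∈ D.C₂ ↔ c ∈ D.C₂) (Q m : ℕ)
    (hCusp : D.Cusp)
    (hOneF : ∀ x : Ideal ↥D.C₁, x.IsMaximal → algebraMap D.A₀ ↥D.C₁ D.ϖ ∈ x →
      ¬ Both D.V₁ D.V₂ D.C₁ x → OneComp D.C₁ D.V₁ D.V₂ m x ∨ OneComp D.C₁ D.V₂ D.V₁ m x)
    (hCr₁ : CrossFrob₁ D S₀ Q m) : CrossFrob₂ D S₀ Q m := by
  intro x hx hϖx hB
  have hjx : (⟨D.j⁻¹, hj₂⟩ : ↥D.C₂) ∉ x := fun hjx => hCusp x hx hϖx ⟨_, hjx, rfl⟩ hB
  have h₁ : ∀ x₁ : Ideal ↥D.C₁, x₁.IsMaximal → algebraMap D.A₀ ↥D.C₁ D.ϖ ∈ x₁ →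
      PointFrob D.C₁ D.V₁ D.V₂ S₀ Q m x₁ := by
    intro x₁ hx₁ hϖx₁
    by_cases hB₁ : Both D.V₁ D.V₂ D.C₁ x₁
    · exact Or.inr (Or.inr (hCr₁ x₁ hx₁ hϖx₁ hB₁))
    · rcases hOneF x₁ hx₁ hϖx₁ hB₁ with h | h
      · exact Or.inl h
      · exact Or.inr (Or.inl h)
  rcases Fermat.Agent.S35.H57.pointFrob_of_glue D.ϖ hirr D.j hj0 D.C₁ D.C₂ hj₁ hj₂ hint₂ hglue
    D.V₁ D.V₂ h₁₁ h₁₂ h₂₁ h₂₂ S₀ hSC₂ Q m h₁ x hx hϖx hjx with h | h | h
  · obtain ⟨⟨t, htx, ht⟩, -⟩ := h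
    exact absurd (hB.2 t ht) htx
  · obtain ⟨⟨t, htx, ht⟩, -⟩ := h
    exact absurd (hB.1 t ht) htx
  · exact h

variable (B : (M q : ℕ) → FN M → Prop)

/-- **Leaf (L6b), chart at infinity**: from the finite chart, by transfer. -/
theorem crossFrobLeafB₂_of_glue (hchart : ChartLeafB B) (hsemi : SemiLeafB B) (hcusp : CuspLeafB B)
    (honeF : OneCompFrobLeafB B) (hcr₁ : CrossFrobLeafB₁ B) : CrossFrobLeafB₂ B := by
  intro M q _ _ hqM hlev A hA hAtop O₁ w hTG x₀ hx₀ hB K₀ _ _ ϖ hϖ j hj σ σ' hσ m hm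
  letI := algComap (A.comap (algebraMap K₀ Kb)) (ratForm (M * q) K₀)
  haveI := Fermat.Agent.S34.H78.isDVR_comap hAtop K₀
  haveI := Fermat.Agent.S34.H78.faithfulSMul_comap A K₀ (ratForm (M * q) K₀)
  have hch := hchart M q hqM hlev A hA x₀ hx₀ hB K₀ j hj
  have hCG := Fermat.Agent.S34.H44.chartsGood j hch.1 hch.2
  have hs := hsemi M q hqM hlev A hA hAtop O₁ w hTG x₀ hx₀ hB K₀ ϖ hϖ j hj σ'
  have hjrat : (j : FN (M * q)) ∈ Set.range (ratEmb (M * q)) := by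
    obtain ⟨g, hg⟩ := hx₀.1
    rw [hj, ← hg]
    exact ⟨_, (heckeAlphaBar_ratEmb M q g).symm⟩
  have hFD := Fermat.Agent.S35.H65.frobData_stdV_holds hqM A hA hAtop O₁ w hTG K₀ ϖ hϖ j hjrat
    σ' σ hσ
  exact crossFrob₂_of_glue (stdV M q A hAtop O₁ w K₀ ϖ j σ') hϖ hCG.j_ne hCG.j_mem₁ hCG.j_mem₂
    (fun c hc => hc) hCG.glue hs.le₁₁ hs.le₁₂ hs.le₂₁ hs.le₂₂ (frobSq (M * q) K₀ σ) hFD.S_mem₂
    (q ^ 2) m (hcusp M q hqM hlev A hA hAtop O₁ w hTG x₀ hx₀ hB K₀ ϖ hϖ j hj σ')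
    (honeF M q hqM hlev A hA hAtop O₁ w hTG x₀ hx₀ hB K₀ ϖ hϖ j hj σ' m hm).1
    (hcr₁ M q hqM hlev A hA hAtop O₁ w hTG x₀ hx₀ hB K₀ ϖ hϖ j hj σ σ' hσ m hm)

/-- **The root of S35-GEO, relative form**, without the leaf for the chart at infinity. -/
theorem frobModelStatement_of_leavesB' (hbase : BaseLeafB B) (hchart : ChartLeafB B)
    (hsemi : SemiLeafB B) (hone : OneCompLeafB B) (hcusp : CuspLeafB B) (hcross : CrossLeafB B)
    (hred : FrobRedLeafB B) (honeF : OneCompFrobLeafB B) (hcr₁ : CrossFrobLeafB₁ B) :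
    FrobModelStatement :=
  frobModelStatement_of_leavesB B hbase hchart hsemi hone hcusp hcross hred honeF hcr₁
    (crossFrobLeafB₂_of_glue B hchart hsemi hcusp honeF hcr₁)

/-- **The root of S35-GEO at the standard base function**: the model leaf from the four open
leaves of Program B' and the THREE S35 leaves `FrobRedLeafB StdB` (L3), `OneCompFrobLeafB StdB`
(L6a), `CrossFrobLeafB₁ StdB` (L6b). -/
theorem frobModelStatement_of_pointLeaves' (hsemi : SemiLeafB StdB) (hone : OneCompLeafB StdB)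
    (hcusp : CuspLeafB StdB) (hcross : CrossLeafB StdB) (hred : FrobRedLeafB StdB)
    (honeF : OneCompFrobLeafB StdB) (hcr₁ : CrossFrobLeafB₁ StdB) : FrobModelStatement :=
  frobModelStatement_of_leavesB' StdB baseLeafB_std (chartLeafB_of StdB chartLeaf) hsemi hone
    hcusp hcross hred honeF hcr₁

end Fermat.Agent.S35.H27
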