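/-
S35, geometry side (helper27, designer): the binding interface `(B2new)` between the algebra
side (helper90's top) and the geometry.

For a prime `q ∤ N`, the `q`-new part of `J₀(N q)` is the common kernel of the two degeneracy
push-forwards `α_*, β_* : J₀(N q) → J₀(N)` (`S35.H60.degAlpha`, `degBeta`).  On its
`p`-power torsion (`p ≠ q`) every Frobenius `σ` at `q` satisfies
`(σ² - 1)(σ² - q²) = σ⁴ - (q² + 1) σ² + q² = 0`, up to a bounded power of `p`.
-/
import Fermat.Prelude.Def_FLTPrelim_Ramification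
import Fermat.Prelude.Def_EllipticCurve_FrobeniusTrace
import Fermat.Prelude.Def_ModularCurve_ArithmeticGalois
import Fermat.Agent.S35.H60.DegDefs

set_option autoImplicit false

open AlgebraicCurve ModularCurve

noncomputable section

namespace Fermat.Agent.S35.H27

/-- The algebraic closure of `ℚ`. -/
abbrev Qbar : Type := AlgebraicClosure ℚ

/-- The operator `(σ² - 1)(σ² - q²)` on `J₀(M)`. -/
def frobPoly (M q : ℕ) (σ : Qbar ≃ₐ[ℚ] Qbar) (x : JZero M) : JZero M :=
  σ • σ • σ • σ • x - (q ^ 2 + 1) • σ • σ • x + q ^ 2 • x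

/-- **Binding interface `(B2new)` of S35**: on the `p`-power torsion of the `q`-new part of
`J₀(N q)`, `(σ² - 1)(σ² - q²)` vanishes up to a bounded power of `p`, for every Frobenius `σ`
at `q`. -/
def B2newStatement (N q p : ℕ) [NeZero N] [NeZero q] : Prop :=
  ∃ a : ℕ, ∀ (n : ℕ) (A : ValuationSubring Qbar), A.LiesOverPrime q →
    ∀ σ : Qbar ≃ₐ[ℚ] Qbar, A.IsFrobeniusAt σ q → ∀ x : JZero (N * q), p ^ n • x = 0 →
      Fermat.Agent.S35.H60.degAlpha N q x = 0 → Fermat.Agent.S35.H60.degBeta N q x = 0 →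
        p ^ a • frobPoly (N * q) q σ x = 0

/-- The exact form (`a = 0`) of `B2newStatement`. -/
def B2newExact (N q p : ℕ) [NeZero N] [NeZero q] : Prop :=
  ∀ (n : ℕ) (A : ValuationSubring Qbar), A.LiesOverPrime q →
    ∀ σ : Qbar ≃ₐ[ℚ] Qbar, A.IsFrobeniusAt σ q → ∀ x : JZero (N * q), p ^ n • x = 0 →
      Fermat.Agent.S35.H60.degAlpha N q x = 0 → Fermat.Agent.S35.H60.degBeta N q x = 0 →
        frobPoly (N * q) q σ x = 0

theorem B2newExact.b2newStatement {N q p : ℕ} [NeZero N] [NeZero q] (h : B2newExact N q p) :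
    B2newStatement N q p :=
  ⟨0, fun n A hA σ hσ x hx ha hb => by
    rw [pow_zero, one_smul]; exact h n A hA σ hσ x hx ha hb⟩

end Fermat.Agent.S35.H27
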