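/-
S35, geometry side (helper27): THE ROOT OF S35-GEO, CLOSED.

`frobModelStatement : FrobModelStatement` — the Frobenius model leaf of S35, unconditional.

All leaves are theorems on main:
* Program B' (S34): `H30.semiLeafB_std` (semi-local, M3), `H4.oneCompLeafB_std` (one-component
  points), `H79.cuspLeafB_std` (cusps), `H77.crossLeafB_std_of_regular` applied to
  `H68.regularCrossLeaf_of H43.hauptBeta H30.hauptUnr_std` (crossing points, regular node);
* S35: the Frobenius data (helper65, helper10: inside the root), the Cartier condition at the
  closed points (helper7: inside the root), the reductions (GA) `H14.frobRedLeaf` (helper14),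
  the one-component points `H97.oneCompFrobLeafB_std` (helper97), the crossing points of the
  finite chart `H53.crossFrobLeafB₁_std` (helper53, with helper95, helper57), the crossing points
  of the chart at infinity by transfer (helper57: inside the root).
-/
import Fermat.Agent.S34.H30.Done
import Fermat.Agent.S35.H14.FrobRed
import Fermat.Agent.S35.H97.OneCompLeafB
import Fermat.Agent.S35.H53.CrossStd
import Fermat.Agent.S35.H27.FrobCross2

set_option autoImplicit false

open AlgebraicCurve ModularCurve

noncomputable section

namespace Fermat.Agent.S35.H27

open Fermat.Agent.S34.H30 Fermat.Agent.S34.H77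

/-- **The Frobenius model leaf of S35** (root of S35-GEO), unconditional. -/
theorem frobModelStatement : FrobModelStatement :=
  frobModelStatement_of_pointLeaves' semiLeafB_std Fermat.Agent.S34.H4.oneCompLeafB_std
    Fermat.Agent.S34.H79.cuspLeafB_std
    (crossLeafB_std_of_regular
      (Fermat.Agent.S34.H68.regularCrossLeaf_of Fermat.Agent.S34.H43.hauptBeta hauptUnr_std))
    (frobRedLeafB_of StdB Fermat.Agent.S35.H14.frobRedLeaf)
    Fermat.Agent.S35.H97.oneCompFrobLeafB_std Fermat.Agent.S35.H53.crossFrobLeafB₁_std

end Fermat.Agent.S35.H27
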