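/-
S35, geometry side (helper27): THE ROOT of S35-GEO on the concrete model.

`frobModelStatement_of_leaves` : the model leaf `FrobModelStatement` (`FrobModel.lean`) from the
leaves of `FrobLeaves.lean` and the leaves of Program B' (`S34/H30/Leaves.lean`).

* the descent: a normal number field `K₀` over which `u`, the two functions `h_α`, `h_β` and the
  two constants of the norm hypotheses are defined (`H78.rat_ratForm`, `H78.div_modular`,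
  `H61.exists_finset_forall_mem_ratForm`, `H61.exists_normal_numberField`);
* the model: `H30.stdV` with the identity in the inertia slot (`H30.stdV_good`);
* the Cartier condition for `w = S₀ u₀ / u₀`: at one-component points from factoriality at `x`
  and at `S₀⁻¹ x` (`S35.H7.cartier_frob_of_pointOK`), at crossing points (fixed by `S₀`) from
  `HGen` (same theorem) or `HLoc` (`HLocFrobStatement`), at the non-cuspidal points of the chart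
  at infinity by transfer (`H30.cartier_transfer`).
-/
import Fermat.Agent.S34.H30.Root
import Fermat.Agent.S34.H78.LeafDescent
import Fermat.Agent.S35.H7.Step1Frob
import Fermat.Agent.S35.H27.FrobLeaves

set_option autoImplicit false
set_option linter.style.haveILetI false
set_option linter.unusedSectionVars false

open AlgebraicCurve ModularCurve

noncomputable section

namespace Fermat.Agent.S35.H27

open Fermat.Agent.S34.H27 Fermat.Agent.S34.H30 Fermat.Agent.S34.H10 Fermat.Agent.S34.H7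
  Fermat.Agent.S18 Fermat.Agent.S18.H74 Fermat.Agent.S18.H19 Fermat.Agent.S34.H19
  Fermat.Agent.S34.H61 Fermat.Agent.S34.H64 Fermat.Agent.S37.H36 Fermat.Agent.S35.H7

section Abstract

variable {A₀ F₀ : Type} [CommRing A₀] [IsDomain A₀] [IsDiscreteValuationRing A₀] [Field F₀]
  [Algebra A₀ F₀] [FaithfulSMul A₀ F₀]

/-- An automorphism preserving a valuation ring with uniformiser `ϖ` and inducing an
endomorphism of the base maps `ϖ` to a unit multiple of `ϖ`. -/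
theorem exists_unit_map_unif (ϖ : A₀) (hϖ : Irreducible ϖ) (V : ValuationSubring F₀)
    (hu : IsUnif ϖ V) (hAV : ∀ a : A₀, algebraMap A₀ F₀ a ∈ V) (S : F₀ ≃+* F₀)
    (hSV : ∀ y : F₀, S y ∈ V ↔ y ∈ V) (Q : ℕ) (hQ : Q ≠ 0)
    (hSA : ∀ a : A₀, ∃ a' : A₀, S (algebraMap A₀ F₀ a) = algebraMap A₀ F₀ a' ∧ ϖ ∣ a' - a ^ Q) :
    ∃ e : A₀ˣ, S (algebraMap A₀ F₀ ϖ) = algebraMap A₀ F₀ (e * ϖ) := by
  obtain ⟨a', ha', hdvd⟩ := hSA ϖ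
  have h1 : ϖ ∣ a' := by
    have h2 : ϖ ∣ ϖ ^ Q := dvd_pow_self ϖ hQ
    have h3 := dvd_add hdvd h2
    rwa [sub_add_cancel] at h3
  obtain ⟨b, rfl⟩ := h1
  have hϖF : algebraMap A₀ F₀ ϖ ≠ 0 := fun h0 =>
    hϖ.ne_zero (FaithfulSMul.algebraMap_injective A₀ F₀ (by rw [h0, map_zero]))
  by_cases hb : IsUnit b
  · obtain ⟨e, rfl⟩ := hb
    exact ⟨e, by rw [ha', mul_comm]⟩
  · exfalso
    have hbϖ : ϖ ∣ b := by
      have h2 := (IsDiscreteValuationRing.irreducible_iff_uniformizer ϖ).1 hϖ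
      have hbm : b ∈ IsLocalRing.maximalIdeal A₀ := (IsLocalRing.mem_maximalIdeal b).2 hb
      rw [h2] at hbm
      exact Ideal.mem_span_singleton.1 hbm
    obtain ⟨b', rfl⟩ := hbϖ
    have hϖnu : algebraMap A₀ F₀ ϖ ∈ V.nonunits :=
      (hu _).2 ⟨1, V.one_mem, by rw [Algebra.smul_def, mul_one]⟩
    have hz : S.symm (algebraMap A₀ F₀ ϖ) ∈ V.nonunits := by
      rw [nu_iff, ← map_lt_iff V S hSV, S.apply_symm_apply, ← nu_iff]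
      exact hϖnu
    obtain ⟨d, hd, hzd⟩ := (hu _).1 hz
    have h4 : algebraMap A₀ F₀ ϖ = S (algebraMap A₀ F₀ ϖ) * S d := by
      have h5 := congrArg S hzd
      rw [S.apply_symm_apply, Algebra.smul_def, map_mul] at h5
      exact h5
    rw [ha', map_mul, map_mul] at h4
    have h5 : (1 : F₀) = ϖ • (algebraMap A₀ F₀ b' * S d) := by
      rw [Algebra.smul_def]
      apply mul_left_cancel₀ hϖF
      rw [mul_one]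
      calc algebraMap A₀ F₀ ϖ
          = algebraMap A₀ F₀ ϖ * (algebraMap A₀ F₀ ϖ * algebraMap A₀ F₀ b') * S d := h4
        _ = algebraMap A₀ F₀ ϖ * (algebraMap A₀ F₀ ϖ * (algebraMap A₀ F₀ b' * S d)) := by ring
    have h6 : (1 : F₀) ∈ V.nonunits :=
      (hu _).2 ⟨_, V.mul_mem _ _ (hAV b') ((hSV d).2 hd), h5⟩
    rw [nu_iff, map_one] at h6
    exact lt_irrefl _ h6

omit [IsDomain A₀] [IsDiscreteValuationRing A₀] [FaithfulSMul A₀ F₀] in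
/-- An automorphism preserving a discrete valuation ring with uniformiser `ϖ`, and mapping `ϖ`
to a unit multiple of itself, preserves the valuation. -/
theorem frob_val_of_scale (ϖ : A₀) (hϖF : algebraMap A₀ F₀ ϖ ≠ 0) (V : ValuationSubring F₀)
    (hAV : ∀ a : A₀, algebraMap A₀ F₀ a ∈ V)
    (hsc : ∀ y : F₀, y ≠ 0 → ∃ n : ℤ, IsU V (y / algebraMap A₀ F₀ ϖ ^ n))
    (S : F₀ ≃+* F₀) (hSV : ∀ y : F₀, S y ∈ V ↔ y ∈ V)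
    (hSϖ : ∃ e : A₀ˣ, S (algebraMap A₀ F₀ ϖ) = algebraMap A₀ F₀ (e * ϖ))
    (y : F₀) (hy : y ≠ 0) : S y / y ∈ V ∧ y / S y ∈ V := by
  obtain ⟨n, hU1, hU2⟩ := hsc y hy
  obtain ⟨e, he⟩ := hSϖ
  set P : F₀ := algebraMap A₀ F₀ ϖ with hP
  set E : F₀ := algebraMap A₀ F₀ (e : A₀) with hE
  set U : F₀ := y / P ^ n with hU
  have hPn : P ^ n ≠ 0 := zpow_ne_zero n hϖF
  have hU0 : U ≠ 0 := div_ne_zero hy hPn
  have hEinv : E * algebraMap A₀ F₀ ((e⁻¹ : A₀ˣ) : A₀) = 1 := by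
    rw [hE, ← map_mul, Units.mul_inv, map_one]
  have hE0 : E ≠ 0 := left_ne_zero_of_mul_eq_one hEinv
  have hEi : E⁻¹ = algebraMap A₀ F₀ ((e⁻¹ : A₀ˣ) : A₀) := inv_eq_of_mul_eq_one_right hEinv
  have hEV : E ∈ V := hAV _
  have hEiV : E⁻¹ ∈ V := by rw [hEi]; exact hAV _
  have hEz : ∀ k : ℤ, E ^ k ∈ V := by
    intro k
    obtain ⟨j, rfl | rfl⟩ := k.eq_nat_or_neg
    · rw [zpow_natCast]
      exact V.pow_mem hEV j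
    · rw [zpow_neg, zpow_natCast, ← inv_pow]
      exact V.pow_mem hEiV j
  have hy' : y = U * P ^ n := by rw [hU, div_mul_cancel₀ _ hPn]
  have hSP : S P = E * P := by rw [hP, he, map_mul]
  have hSy : S y = S U * (E ^ n * P ^ n) := by
    conv_lhs => rw [hy']
    rw [map_mul, map_zpow₀, hSP, mul_zpow]
  have hSU : S U ∈ V := (hSV U).2 hU1
  have hSU0 : S U ≠ 0 := (map_ne_zero S).2 hU0
  have hSUi : (S U)⁻¹ ∈ V := by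
    rw [← map_inv₀]
    exact (hSV _).2 hU2
  have hEn0 : E ^ n ≠ 0 := zpow_ne_zero n hE0
  constructor
  · have e1 : S y / y = S U * U⁻¹ * E ^ n := by
      rw [hSy]
      conv_lhs => rw [hy']
      field_simp
    rw [e1]
    exact V.mul_mem _ _ (V.mul_mem _ _ hSU hU2) (hEz n)
  · have e1 : y / S y = U * (S U)⁻¹ * E ^ (-n) := by
      rw [hSy, zpow_neg]
      conv_lhs => rw [hy']
      field_simp
    rw [e1]
    exact V.mul_mem _ _ (V.mul_mem _ _ hU1 hSUi) (hEz (-n))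

/-- The Cartier condition for `S u / u` at a closed point which is not on both components: from
the factoriality of the local rings at `x` and at `S⁻¹ x`. -/
theorem cartier_frob_of_not_both (ϖ : A₀) (hϖ : Irreducible ϖ) (C : Subalgebra A₀ F₀)
    [IsIntegrallyClosed ↥C] [IsNoetherianRing ↥C]
    (hfrac : ∀ y : F₀, ∃ a ∈ C, ∃ b ∈ C, b ≠ 0 ∧ y = a / b)
    (V₁ V₂ : ValuationSubring F₀) (hu₁ : IsUnif ϖ V₁) (hu₂ : IsUnif ϖ V₂)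
    (hCV₁ : ∀ c ∈ C, c ∈ V₁) (hCV₂ : ∀ c ∈ C, c ∈ V₂)
    (hsat : ∀ y : F₀, y ∈ V₁ → y ∈ V₂ → ϖ • y ∈ C → y ∈ C)
    (hsc₁ : ∀ y : F₀, y ≠ 0 → ∃ n : ℤ, IsU V₁ (y / algebraMap A₀ F₀ ϖ ^ n))
    (hsc₂ : ∀ y : F₀, y ≠ 0 → ∃ n : ℤ, IsU V₂ (y / algebraMap A₀ F₀ ϖ ^ n))
    (S : F₀ ≃+* F₀) (hSC : ∀ c : F₀, S c ∈ C ↔ c ∈ C)
    (hSV₁ : ∀ y : F₀, S y ∈ V₁ ↔ y ∈ V₁) (hSV₂ : ∀ y : F₀, S y ∈ V₂ ↔ y ∈ V₂)
    (hSϖ : ∃ e : A₀ˣ, S (algebraMap A₀ F₀ ϖ) = algebraMap A₀ F₀ (e * ϖ))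
    (m : ℕ) (u : F₀) (hu : u ≠ 0)
    (hdiv : ∀ V : ValuationSubring F₀, (algebraMap A₀ F₀ ϖ)⁻¹ ∈ V →
      (∀ a : A₀, algebraMap A₀ F₀ a ∈ V) → IsDiscreteValuationRing V →
      ∃ t : F₀, t ≠ 0 ∧ u / t ^ m ∈ V ∧ (u / t ^ m)⁻¹ ∈ V)
    (hUFD : ∀ (y : Ideal ↥C) (hy : y.IsMaximal), algebraMap A₀ ↥C ϖ ∈ y → ¬ Both V₁ V₂ C y →
      PointUFD C y hy.isPrime)
    (x : Ideal ↥C) (hx : x.IsMaximal) (hϖx : algebraMap A₀ ↥C ϖ ∈ x) (hB : ¬ Both V₁ V₂ C x) :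
    ∃ g : F₀, g ≠ 0 ∧ ∃ a b : ↥C, a ∉ x ∧ b ∉ x ∧ S u / u * (b : F₀) = (a : F₀) * g ^ m := by
  haveI : IsFractionRing ↥C F₀ := Fermat.Agent.S34.H54.isFractionRing_of_forall_div C hfrac
  have hϖF : algebraMap A₀ F₀ ϖ ≠ 0 := fun h0 =>
    hϖ.ne_zero (FaithfulSMul.algebraMap_injective A₀ F₀ (by rw [h0, map_zero]))
  have hx' : (frobComap C S hSC x).IsMaximal := frobComap_isMaximal C S hSC x hx
  have hϖx' : algebraMap A₀ ↥C ϖ ∈ frobComap C S hSC x := by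
    obtain ⟨e, he⟩ := hSϖ
    exact unif_mem_frobComap C S hSC x ϖ ⟨(e : A₀), he⟩ hϖx
  have hback : ∀ (V : ValuationSubring F₀), (∀ y : F₀, S y ∈ V ↔ y ∈ V) →
      (∀ c : ↥C, (c : F₀) ∈ V.nonunits → c ∈ frobComap C S hSC x) →
      ∀ c : ↥C, (c : F₀) ∈ V.nonunits → c ∈ x := by
    intro V hSV hb c hc
    have hc'C : S.symm (c : F₀) ∈ C := (hSC _).1 (by rw [S.apply_symm_apply]; exact c.2)
    have hc'nu : S.symm (c : F₀) ∈ V.nonunits := by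
      rw [nu_iff, ← map_lt_iff V S hSV, S.apply_symm_apply, ← nu_iff]
      exact hc
    have h1 := hb ⟨_, hc'C⟩ hc'nu
    rw [mem_frobComap] at h1
    have h2 : (⟨S ((⟨S.symm (c : F₀), hc'C⟩ : ↥C) : F₀),
        (hSC _).2 (⟨S.symm (c : F₀), hc'C⟩ : ↥C).2⟩ : ↥C) = c :=
      Subtype.ext (S.apply_symm_apply _)
    rw [h2] at h1
    exact h1
  have hB' : ¬ Both V₁ V₂ C (frobComap C S hSC x) := fun hb =>
    hB ⟨hback V₁ hSV₁ hb.1, hback V₂ hSV₂ hb.2⟩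
  have hpt : (∃ t : ↥C, t ∉ x ∧ (t : F₀) ∈ V₂.nonunits) ∨
      (∃ t : ↥C, t ∉ x ∧ (t : F₀) ∈ V₁.nonunits) ∨
      ∀ c : ↥C, c ∈ frobComap C S hSC x ↔ c ∈ x := by
    by_cases h1 : ∀ c : ↥C, (c : F₀) ∈ V₂.nonunits → c ∈ x
    · by_cases h2 : ∀ c : ↥C, (c : F₀) ∈ V₁.nonunits → c ∈ x
      · exact absurd ⟨h2, h1⟩ hB
      · push Not at h2
        obtain ⟨t, ht, htx⟩ := h2
        exact Or.inr (Or.inl ⟨t, htx, ht⟩)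
    · push Not at h1
      obtain ⟨t, ht, htx⟩ := h1
      exact Or.inl ⟨t, htx, ht⟩
  exact cartier_frob_of_pointOK ϖ hϖF C V₁ V₂ hu₁ hu₂ hCV₁ hCV₂ hsat hsc₁ hsc₂ S hSC hSV₁ hSV₂
    hSϖ m u hu hdiv x hx (Or.inl (hUFD x hx hϖx hB)) (Or.inl (hUFD _ hx' hϖx' hB')) hpt

/-- The Cartier condition for `S u / u` at a closed point fixed by `S` (in the strong form: `S`
induces the `Q`-power map on the residue field), from `HLoc` or `HGen`. -/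
theorem cartier_frob_of_fixed (hloc : HLocFrobStatement) (ϖ : A₀) (hϖ : Irreducible ϖ)
    (C : Subalgebra A₀ F₀) [IsIntegrallyClosed ↥C] [IsNoetherianRing ↥C]
    (hfrac : ∀ y : F₀, ∃ a ∈ C, ∃ b ∈ C, b ≠ 0 ∧ y = a / b)
    (V₁ V₂ : ValuationSubring F₀) (hu₁ : IsUnif ϖ V₁) (hu₂ : IsUnif ϖ V₂)
    (hCV₁ : ∀ c ∈ C, c ∈ V₁) (hCV₂ : ∀ c ∈ C, c ∈ V₂)
    (hsat : ∀ y : F₀, y ∈ V₁ → y ∈ V₂ → ϖ • y ∈ C → y ∈ C)
    (hsc₁ : ∀ y : F₀, y ≠ 0 → ∃ n : ℤ, IsU V₁ (y / algebraMap A₀ F₀ ϖ ^ n))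
    (hsc₂ : ∀ y : F₀, y ≠ 0 → ∃ n : ℤ, IsU V₂ (y / algebraMap A₀ F₀ ϖ ^ n))
    (S : F₀ ≃+* F₀) (hSC : ∀ c : F₀, S c ∈ C ↔ c ∈ C)
    (hSV₁ : ∀ y : F₀, S y ∈ V₁ ↔ y ∈ V₁) (hSV₂ : ∀ y : F₀, S y ∈ V₂ ↔ y ∈ V₂)
    (hSϖ : ∃ e : A₀ˣ, S (algebraMap A₀ F₀ ϖ) = algebraMap A₀ F₀ (e * ϖ))
    (m : ℕ) (u : F₀) (hu : u ≠ 0)
    (hdiv : ∀ V : ValuationSubring F₀, (algebraMap A₀ F₀ ϖ)⁻¹ ∈ V →
      (∀ a : A₀, algebraMap A₀ F₀ a ∈ V) → IsDiscreteValuationRing V →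
      ∃ t : F₀, t ≠ 0 ∧ u / t ^ m ∈ V ∧ (u / t ^ m)⁻¹ ∈ V)
    (Q : ℕ) (hQ : Q ≠ 0)
    (x : Ideal ↥C) (hx : x.IsMaximal) (hϖx : algebraMap A₀ ↥C ϖ ∈ x)
    (hres : ∀ c : ↥C, ∃ d : ↥C, d ∈ x ∧ S (c : F₀) = (c : F₀) ^ Q + (d : F₀))
    (hcert : HLoc ϖ m C x u ∨ HGen C x (algebraMap A₀ ↥C ϖ) u) :
    ∃ g : F₀, g ≠ 0 ∧ ∃ a b : ↥C, a ∉ x ∧ b ∉ x ∧ S u / u * (b : F₀) = (a : F₀) * g ^ m := by
  haveI : IsFractionRing ↥C F₀ := Fermat.Agent.S34.H54.isFractionRing_of_forall_div C hfrac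
  have hϖF : algebraMap A₀ F₀ ϖ ≠ 0 := fun h0 =>
    hϖ.ne_zero (FaithfulSMul.algebraMap_injective A₀ F₀ (by rw [h0, map_zero]))
  have hA₁ : ∀ a : A₀, algebraMap A₀ F₀ a ∈ V₁ := fun a => hCV₁ _ (C.algebraMap_mem a)
  have hA₂ : ∀ a : A₀, algebraMap A₀ F₀ a ∈ V₂ := fun a => hCV₂ _ (C.algebraMap_mem a)
  haveI := hx.isPrime
  have hfix : ∀ c : ↥C, c ∈ frobComap C S hSC x ↔ c ∈ x := by
    intro c
    rw [mem_frobComap]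
    obtain ⟨d, hd, hSd⟩ := hres c
    have h1 : (⟨S (c : F₀), (hSC _).2 c.2⟩ : ↥C) = c ^ Q + d := Subtype.ext hSd
    rw [h1]
    constructor
    · intro h
      have h2 : c ^ Q ∈ x := by
        have h3 := x.sub_mem h hd
        rwa [add_sub_cancel_right] at h3
      exact hx.isPrime.mem_of_pow_mem Q h2
    · intro h
      exact x.add_mem (Ideal.pow_mem_of_mem x h Q (Nat.pos_of_ne_zero hQ)) hd
  rcases hcert with hl | hg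
  · refine hloc A₀ F₀ ϖ hϖ m C (interAlg V₁ V₂ hA₁ hA₂) hfrac
      (fun c hc => ⟨hCV₁ c hc, hCV₂ c hc⟩) (fun y hy h => hsat y hy.1 hy.2 h) S hSC hSϖ
      (fun y hy => ?_) x hx hϖx ?_ u hu hl
    · have h1 := frob_val_of_scale ϖ hϖF V₁ hA₁ hsc₁ S hSV₁ hSϖ y hy
      have h2 := frob_val_of_scale ϖ hϖF V₂ hA₂ hsc₂ S hSV₂ hSϖ y hy
      exact ⟨⟨h1.1, h2.1⟩, ⟨h1.2, h2.2⟩⟩
    · intro c c' hcc hcx hc'x
      apply hcx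
      refine (hfix c).1 ?_
      rw [mem_frobComap]
      have h2 : (⟨S (c : F₀), (hSC _).2 c.2⟩ : ↥C) = c' := Subtype.ext hcc.symm
      rw [h2]
      exact hc'x
  · have hxeq : frobComap C S hSC x = x := Ideal.ext hfix
    have hg' : HGen C (frobComap C S hSC x) (algebraMap A₀ ↥C ϖ) u := by
      rw [hxeq]
      exact hg
    exact cartier_frob_of_pointOK ϖ hϖF C V₁ V₂ hu₁ hu₂ hCV₁ hCV₂ hsat hsc₁ hsc₂ S hSC hSV₁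
      hSV₂ hSϖ m u hu hdiv x hx (Or.inr hg) (Or.inr hg') (Or.inr (Or.inr hfix))

end Abstract

/-- **The closed points of the special fibre**: for a good two-valuation model with the point
leaves of Program B' and of S35, the function `S₀ u₀ / u₀` satisfies the Cartier condition at
every closed point of the special fibre of both charts, and every such point is a one-component
point with normal branch or a crossing point. -/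
theorem frobPoints {M : ℕ} (D : VData M) (m : ℕ) (τ : FF M ≃+* FF M) (hD : D.Good m τ)
    (Q : ℕ) (hQ : Q ≠ 0) (S₀ : D.F₀ ≃+* D.F₀)
    (hSC₁ : ∀ c : D.F₀, S₀ c ∈ D.C₁ ↔ c ∈ D.C₁) (hSC₂ : ∀ c : D.F₀, S₀ c ∈ D.C₂ ↔ c ∈ D.C₂)
    (hSV₁ : ∀ y : D.F₀, S₀ y ∈ D.V₁ ↔ y ∈ D.V₁) (hSV₂ : ∀ y : D.F₀, S₀ y ∈ D.V₂ ↔ y ∈ D.V₂)
    (hSA : ∀ a : D.A₀, ∃ a' : D.A₀,
      S₀ (algebraMap D.A₀ D.F₀ a) = algebraMap D.A₀ D.F₀ a' ∧ D.ϖ ∣ a' - a ^ Q)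
    (hsc : Scale D) (hloc : HLocFrobStatement)
    (u₀ : D.F₀) (hu₀0 : u₀ ≠ 0) (hDivK : D.DivK m u₀)
    (hOne : D.OneComp) (hCusp : D.Cusp) (hCross : D.Cross m u₀)
    (hOneF : OneCompFrob D m) (hCr₁ : CrossFrob₁ D S₀ Q m) (hCr₂ : CrossFrob₂ D S₀ Q m) :
    (∀ x : Ideal ↥D.C₁, x.IsMaximal → algebraMap D.A₀ ↥D.C₁ D.ϖ ∈ x →
      FrobPoint D.C₁ D.V₁ D.V₂ S₀ Q m (S₀ u₀ / u₀) x) ∧
    (∀ x : Ideal ↥D.C₂, x.IsMaximal → algebraMap D.A₀ ↥D.C₂ D.ϖ ∈ x →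
      FrobPoint D.C₂ D.V₁ D.V₂ S₀ Q m (S₀ u₀ / u₀) x) := by
  haveI := hD.icl₁
  haveI := hD.icl₂
  haveI := hD.noeth₁
  haveI := hD.noeth₂
  have hDiv := D.div_of_divK hD.irr m u₀ hDivK
  have hA₁ : ∀ a : D.A₀, algebraMap D.A₀ D.F₀ a ∈ D.V₁ := fun a =>
    hD.le₁₁ _ (D.C₁.algebraMap_mem a)
  have hSϖ := exists_unit_map_unif D.ϖ hD.irr D.V₁ hD.unif₁ hA₁ S₀ hSV₁ Q hQ hSA
  -- the Cartier condition on the finite chart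
  have hc₁ : ∀ x : Ideal ↥D.C₁, x.IsMaximal → algebraMap D.A₀ ↥D.C₁ D.ϖ ∈ x →
      ∃ g : D.F₀, g ≠ 0 ∧ ∃ a b : ↥D.C₁, a ∉ x ∧ b ∉ x ∧
        S₀ u₀ / u₀ * (b : D.F₀) = (a : D.F₀) * g ^ m := by
    intro x hx hϖx
    by_cases hB : Both D.V₁ D.V₂ D.C₁ x
    · refine cartier_frob_of_fixed hloc D.ϖ hD.irr D.C₁ hD.frac₁ D.V₁ D.V₂ hD.unif₁ hD.unif₂
        hD.le₁₁ hD.le₁₂ hD.sat₁ hsc.scale₁ hsc.scale₂ S₀ hSC₁ hSV₁ hSV₂ hSϖ m u₀ hu₀0 hDiv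
        Q hQ x hx hϖx (hCr₁ x hx hϖx hB).2.2.1 ?_
      rcases hCross x hx hϖx hB with h | h
      · exact Or.inl h
      · exact Or.inr h
    · exact cartier_frob_of_not_both D.ϖ hD.irr D.C₁ hD.frac₁ D.V₁ D.V₂ hD.unif₁ hD.unif₂
        hD.le₁₁ hD.le₁₂ hD.sat₁ hsc.scale₁ hsc.scale₂ S₀ hSC₁ hSV₁ hSV₂ hSϖ m u₀ hu₀0 hDiv
        hOne.1 x hx hϖx hB
  -- the Cartier condition on the chart at infinity
  have hc₂ : ∀ x : Ideal ↥D.C₂, x.IsMaximal → algebraMap D.A₀ ↥D.C₂ D.ϖ ∈ x →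
      ∃ g : D.F₀, g ≠ 0 ∧ ∃ a b : ↥D.C₂, a ∉ x ∧ b ∉ x ∧
        S₀ u₀ / u₀ * (b : D.F₀) = (a : D.F₀) * g ^ m := by
    intro x hx hϖx
    by_cases hB : Both D.V₁ D.V₂ D.C₂ x
    · have hjx : (⟨D.j⁻¹, hD.j_mem₂⟩ : ↥D.C₂) ∉ x := fun hjx =>
        hCusp x hx hϖx ⟨_, hjx, rfl⟩ hB
      exact cartier_transfer D.ϖ D.j D.C₁ D.C₂ hD.j_mem₂ hD.glue m (S₀ u₀ / u₀) hc₁ x
        hx.isPrime hϖx hjx
    · exact cartier_frob_of_not_both D.ϖ hD.irr D.C₂ hD.frac₂ D.V₁ D.V₂ hD.unif₁ hD.unif₂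
        hD.le₂₁ hD.le₂₂ hD.sat₂ hsc.scale₁ hsc.scale₂ S₀ hSC₂ hSV₁ hSV₂ hSϖ m u₀ hu₀0 hDiv
        hOne.2 x hx hϖx hB
  refine ⟨fun x hx hϖx => ⟨hc₁ x hx hϖx, ?_⟩, fun x hx hϖx => ⟨hc₂ x hx hϖx, ?_⟩⟩
  · by_cases hB : Both D.V₁ D.V₂ D.C₁ x
    · exact Or.inr (Or.inr (hCr₁ x hx hϖx hB))
    · rcases hOneF.1 x hx hϖx hB with h | h
      · exact Or.inl h
      · exact Or.inr (Or.inl h)
  · by_cases hB : Both D.V₁ D.V₂ D.C₂ x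
    · exact Or.inr (Or.inr (hCr₂ x hx hϖx hB))
    · rcases hOneF.2 x hx hϖx hB with h | h
      · exact Or.inl h
      · exact Or.inr (Or.inl h)

/-- **The root of S35-GEO on the concrete model**: the model leaf `FrobModelStatement` from the
leaves of Program B' (S34) and the leaves of `FrobLeaves.lean`. -/
theorem frobModelStatement_of_leaves (hbase : BaseLeaf) (hchart : ChartLeaf) (hsemi : SemiLeaf)
    (hone : OneCompLeaf) (hcusp : CuspLeaf) (hcross : CrossLeaf)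
    (hS : FrobSLeaf) (hne : FrobNeLeaf) (hscale : ScaleLeaf) (hred : FrobRedLeaf)
    (hloc : HLocFrobStatement) (honeF : OneCompFrobLeaf) (hcr₁ : CrossFrobLeaf₁)
    (hcr₂ : CrossFrobLeaf₂) : FrobModelStatement := by
  intro N q p r _ _ hL n A hA σ hσ u hu hdiv hα hβ
  obtain ⟨⟨hM, hq, hp, hqp, hqM, hq2, hr, hr12, hrM, hr2, hrq, hrp, hbig⟩, h2, h3⟩ := hL
  haveI : Fact q.Prime := ⟨hq⟩
  have hqN : ¬ q ∣ N := by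
    rintro ⟨c, rfl⟩
    exact hq2 ⟨c, by ring⟩
  have h2' : q ≠ 2 → 2 ∣ N := fun hq2' => by
    rcases (Nat.Prime.dvd_mul Nat.prime_two).1 (h2 hq2') with h | h
    · exact h
    · exact absurd ((Nat.prime_dvd_prime_iff_eq Nat.prime_two hq).1 h).symm hq2'
  have h3' : q ≠ 3 → 3 ∣ N := fun hq3' => by
    rcases (Nat.Prime.dvd_mul Nat.prime_three).1 (h3 hq3') with h | h
    · exact h
    · exact absurd ((Nat.prime_dvd_prime_iff_eq Nat.prime_three hq).1 h).symm hq3'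
  have hqpn : ¬ q ∣ p ^ n := fun h =>
    hqp ((Nat.prime_dvd_prime_iff_eq hq hp).1 (hq.dvd_of_dvd_pow h))
  have hpn0' : 0 < p ^ n := pow_pos hp.pos n
  have hq20 : q ^ 2 ≠ 0 := pow_ne_zero 2 hq.ne_zero
  obtain ⟨hAtop, hpn0, hpnA⟩ := Fermat.Agent.S18.H60.unit_facts_gen A hA (p ^ n) hqpn
  obtain ⟨O₁, w, hTG⟩ := twoGaussStatement N q hqN A hA
  obtain ⟨x₀, hx₀⟩ := hbase N q hqN h2' h3' A hA
  -- the descent
  classical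
  obtain ⟨cα, hα', hNα⟩ := hα
  obtain ⟨cβ, hβ', hNβ⟩ := hβ
  haveI : NeZero (N * q) := ⟨Nat.mul_ne_zero (NeZero.ne N) hq.ne_zero⟩
  obtain ⟨Z₁, hZ₁⟩ := Fermat.Agent.S34.H78.rat_ratForm (N * q) u hu
  obtain ⟨Z₂, hZ₂⟩ := exists_finset_forall_mem_ratForm N {hα', hβ'}
  obtain ⟨K₀, hfin, hnorm, hK₀⟩ := exists_normal_numberField (Z₁ ∪ Z₂ ∪ {cα, cβ})
  haveI := hfin
  haveI := hnorm
  obtain ⟨u₀, hu₀, hrat⟩ := hZ₁ K₀ (fun z hz => hK₀ z (by simp [hz]))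
  have hhα : hα' ∈ ratForm N K₀ := hZ₂ K₀ (fun z hz => hK₀ z (by simp [hz])) hα' (by simp)
  have hhβ : hβ' ∈ ratForm N K₀ := hZ₂ K₀ (fun z hz => hK₀ z (by simp [hz])) hβ' (by simp)
  have hcα : cα ∈ K₀ := hK₀ cα (by simp)
  have hcβ : cβ ∈ K₀ := hK₀ cβ (by simp)
  haveI := Fermat.Agent.S34.H78.isDVR_comap hAtop K₀
  obtain ⟨ϖ, hϖ⟩ := IsDiscreteValuationRing.exists_irreducible ↥(A.comap (algebraMap K₀ Kb))
  obtain ⟨g, hg⟩ := hx₀.1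
  have hjmem : heckeAlphaBar Kb N q x₀ ∈ ratForm (N * q) K₀ :=
    heckeAlphaBar_mem_ratForm N q K₀ (by rw [← hg]; exact ratEmb_mem_ratForm N K₀ g)
  have hjrat : heckeAlphaBar Kb N q x₀ ∈ Set.range (ratEmb (N * q)) :=
    ⟨_, by rw [← hg]; exact (heckeAlphaBar_ratEmb N q g).symm⟩
  have hunit : IsUnit (((p ^ n : ℕ) : ℕ) : ↥(A.comap (algebraMap K₀ Kb))) := by
    have hmem : (((p ^ n : ℕ) : K₀))⁻¹ ∈ A.comap (algebraMap K₀ Kb) := by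
      show algebraMap K₀ Kb (((p ^ n : ℕ) : K₀))⁻¹ ∈ A
      rw [map_inv₀, map_natCast]
      exact hpnA
    refine IsUnit.of_mul_eq_one (⟨_, hmem⟩ : ↥(A.comap (algebraMap K₀ Kb))) ?_
    apply Subtype.ext
    show ((p ^ n : ℕ) : K₀) * (((p ^ n : ℕ) : K₀))⁻¹ = 1
    exact mul_inv_cancel₀ (Nat.cast_ne_zero.mpr hpn0)
  have hσ1 : (1 : Kb ≃ₐ[ℚ] Kb) ∈ A.inertiaSubgroupIn ℚ := one_mem _
  have hGood := stdV_good N q hqN A hA hAtop O₁ w hTG K₀ ϖ hϖ ⟨_, hjmem⟩ hjrat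
    (hchart N q hqN A hA x₀ hx₀ K₀ ⟨_, hjmem⟩ rfl) 1 hσ1
    (hsemi N q hqN A hA hAtop O₁ w hTG x₀ hx₀ K₀ ϖ hϖ ⟨_, hjmem⟩ rfl 1) (p ^ n) hunit
  have hu₀0 : u₀ ≠ 0 := by
    rintro rfl
    exact hu hu₀.symm
  have hFS := hS N q hqN A hA hAtop O₁ w hTG x₀ hx₀ K₀ ϖ hϖ ⟨_, hjmem⟩ rfl σ 1 hσ
  have hFN := hne N q hqN A hA hAtop O₁ w hTG x₀ hx₀ K₀ ϖ hϖ ⟨_, hjmem⟩ rfl 1
  have hSc := hscale N q hqN A hA hAtop O₁ w hTG x₀ hx₀ K₀ ϖ hϖ ⟨_, hjmem⟩ rfl 1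
  have hDivK : (stdV N q A hAtop O₁ w K₀ ϖ ⟨_, hjmem⟩ 1).DivK (p ^ n) u₀ := by
    intro V hinv _
    have hK : ∀ c : K₀, algebraMap K₀ ↥(ratForm (N * q) K₀) c ∈ V :=
      Fermat.Agent.S18.H61.algebraMap_mem_of_forall_inv_mem (A.comap (algebraMap K₀ Kb)) V hinv
    exact Fermat.Agent.S34.H78.div_modular (N * q) K₀ (p ^ n) u₀
      (fun P => by rw [hu₀]; exact hdiv P) V hK
  have hRatK : (stdV N q A hAtop O₁ w K₀ ϖ ⟨_, hjmem⟩ 1).RatK u₀ := by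
    intro V hinv _ hnu y hy
    exact hrat A V hinv hnu y hy
  have hRed := hred N q hqN A hA hAtop O₁ w hTG x₀ hx₀ K₀ ϖ hϖ ⟨_, hjmem⟩ rfl σ 1 hσ (p ^ n)
    u₀ hu₀0 ⟨⟨cα, hcα⟩, ⟨hα', hhα⟩, by rw [hu₀]; exact hNα⟩
    ⟨⟨cβ, hcβ⟩, ⟨hβ', hhβ⟩, by rw [hu₀]; exact hNβ⟩
  have hPts := frobPoints (stdV N q A hAtop O₁ w K₀ ϖ ⟨_, hjmem⟩ 1) (p ^ n)
    (gal (N * q) 1) hGood (q ^ 2) hq20 (frobSq (N * q) K₀ σ) hFS.S_mem₁ hFS.S_mem₂ hFS.S_V₁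
    hFS.S_V₂ hFS.S_base hSc hloc u₀ hu₀0 hDivK
    (hone N q hqN A hA hAtop O₁ w hTG x₀ hx₀ K₀ ϖ hϖ ⟨_, hjmem⟩ rfl 1)
    (hcusp N q hqN A hA hAtop O₁ w hTG x₀ hx₀ K₀ ϖ hϖ ⟨_, hjmem⟩ rfl 1)
    (hcross N q hqN A hA hAtop O₁ w hTG x₀ hx₀ K₀ ϖ hϖ ⟨_, hjmem⟩ rfl 1 (p ^ n) u₀
      hu₀0 hDivK hRatK)
    (honeF N q hqN A hA hAtop O₁ w hTG x₀ hx₀ K₀ ϖ hϖ ⟨_, hjmem⟩ rfl 1 (p ^ n) hpn0')
    (hcr₁ N q hqN A hA hAtop O₁ w hTG x₀ hx₀ K₀ ϖ hϖ ⟨_, hjmem⟩ rfl σ 1 hσ (p ^ n) hpn0')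
    (hcr₂ N q hqN A hA hAtop O₁ w hTG x₀ hx₀ K₀ ϖ hϖ ⟨_, hjmem⟩ rfl σ 1 hσ (p ^ n) hpn0')
  exact ⟨stdV N q A hAtop O₁ w K₀ ϖ ⟨_, hjmem⟩ 1, gal (N * q) 1, frobSq (N * q) K₀ σ, hGood,
    ⟨hFN.ne, hFN.arch₁, hFN.arch₂, hFS.S_mem₁, hFS.S_mem₂, hFS.S_V₁, hFS.S_V₂, hFS.S_base,
      hFS.ι_S⟩, u₀, hu₀, hRed, hPts.1, hPts.2⟩

end Fermat.Agent.S35.H27
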