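/-
S35, geometry side (helper27): the root of S35-GEO at the standard base function.

`frobModelStatement_of_pointLeaves` : the model leaf `FrobModelStatement` from the FOUR open
leaves of Program B' in their final form (`S34/H30/Final.lean`: `H77.SemiLeafB StdB`,
`H77.OneCompLeafB StdB`, `H77.CuspLeafB StdB`, `H77.CrossLeafB StdB`) and the FOUR S35 leaves
`FrobRedLeafB StdB`, `OneCompFrobLeafB StdB`, `CrossFrobLeafB₁ StdB`, `CrossFrobLeafB₂ StdB`
(`FrobRootB.lean`).  The base leaf and the chart leaf are the landed `H30.baseLeafB_std`,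
`H30.chartLeaf`.
-/
import Fermat.Agent.S34.H30.Final
import Fermat.Agent.S35.H27.FrobRootB

set_option autoImplicit false

open AlgebraicCurve ModularCurve

noncomputable section

namespace Fermat.Agent.S35.H27

open Fermat.Agent.S34.H30 Fermat.Agent.S34.H77

/-- **The root of S35-GEO at the standard base function.** -/
theorem frobModelStatement_of_pointLeaves (hsemi : SemiLeafB StdB) (hone : OneCompLeafB StdB)
    (hcusp : CuspLeafB StdB) (hcross : CrossLeafB StdB) (hred : FrobRedLeafB StdB)
    (honeF : OneCompFrobLeafB StdB) (hcr₁ : CrossFrobLeafB₁ StdB)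
    (hcr₂ : CrossFrobLeafB₂ StdB) : FrobModelStatement :=
  frobModelStatement_of_leavesB StdB baseLeafB_std (chartLeafB_of StdB chartLeaf) hsemi hone
    hcusp hcross hred honeF hcr₁ hcr₂

end Fermat.Agent.S35.H27
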